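/-
S48 wall (W), block A2 (sub-architect helper36): the DICTIONARY over `ℂ` for `Γ₁(M)`.
INTERFACE between the dictionary (seats A2.*) and the `κ`-construction of block A (helper43).
DEFINITIONS ONLY (no theorems with content, no sorry).   Port of `F3/I2/DictInterface.lean`.

`FC1 M` = function field of `X₁(M)` over `ℂ` in the model of `S48/W/Defs.lean`:
`ℂ(j(q^d) (d ∣ M), fricke M a (a ≠ 0)) ⊂ ℂ((q))`.
`IsRatio1 M x A B` : the element `x` of `FC1 M` is the quotient `A / B` of two modular forms of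
equal weight on `Γ₁(M)` (comparison of `q`-expansions at `∞`).

CONVENTIONS (checked on `℘`, see the blueprint): for `γ = [α β; γ' δ] ∈ Γ₀(M)` the slash operator
maps `x_a` to `x_{α a}` (`α = γ 0 0` the UPPER LEFT entry), so the diamond automorphism
`⟨d⟩ : fricke a ↦ fricke (d a)` of `S48/W/Hecke.lean` is `A / B ↦ (A ∣ γ) / (B ∣ γ)`, `γ 0 0 ≡ d`.
The `p + 1` conjugates of `x(q^p)` over `FC1 M` are `x(q^p)` itself and the
`(⟨p⟩ x)((τ + b) / p)`, `b mod p`.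

The providers prove the `Prop`s for `5 ≤ M` (no elliptic points, all cusps regular); the
application has `M = N ℓ ≥ 12`.
-/
import Mathlib
import Fermat.Agent.S48.W.Hecke
import Fermat.Agent.F3.I2.DictInterface

set_option autoImplicit false

noncomputable section

namespace Fermat.Agent.S48WA2

open UpperHalfPlane CongruenceSubgroup ModularCurve AlgebraicCurve
open scoped MatrixGroups ModularForm
open P2MW.S_ModularForm_heckeT_slash_eq_self_of_mem_Gamma0.ModularForm.HeckeSlashInvariance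
open Fermat.Agent.S48W Fermat.Agent.F3I2

/-- The function field of `X₁(M)` over `ℂ` (model of `S48/W/Defs.lean` inside `ℂ((q))`). -/
abbrev FC1 (M : ℕ) [NeZero M] : IntermediateField ℂ (LaurentSeries ℂ) :=
  laurentBaseChange ℂ (FOne M)

/-- The function field of `X(Γ₁(M) ∩ Γ₀(p))` over `ℂ`. -/
abbrev FC1P (M p : ℕ) [NeZero M] [NeZero p] : IntermediateField ℂ (LaurentSeries ℂ) :=
  laurentBaseChange ℂ (FOneP M p)

/-- `x = A / B` : `q`-expansion of `A` equals `x` times the `q`-expansion of `B`, and `B ≠ 0`. -/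
def IsRatio1 (M : ℕ) [NeZero M] (x : FC1 M) {w : ℤ} (A B : ModularForm (Gamma1 M) w) : Prop :=
  B ≠ 0 ∧ qLaurent A = (x : LaurentSeries ℂ) * qLaurent B

/-- (D1a) every element of `FC1 M` is a quotient of two modular forms of equal weight on
`Γ₁(M)`. -/
def DictD1a1 (M : ℕ) [NeZero M] : Prop :=
  ∀ x : FC1 M, x ≠ 0 → ∃ (w : ℤ) (A B : ModularForm (Gamma1 M) w), A ≠ 0 ∧ IsRatio1 M x A B

/-- (D1b) every quotient of two modular forms of equal weight on `Γ₁(M)` is in `FC1 M`. -/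
def DictD1b1 (M : ℕ) [NeZero M] : Prop :=
  ∀ (w : ℤ) (A B : ModularForm (Gamma1 M) w), B ≠ 0 → ∃ x : FC1 M, IsRatio1 M x A B

/-- A chart of the place `v` at a point `τ ∈ ℍ`: `e · ord_v (A/B) = ord_τ A - ord_τ B`, and `e` is
the order of the stabiliser of `τ` in `Γ₁(M)` modulo `± 1`, witnessed by an element `γ₀` of the
stabiliser whose squared automorphy factor at `τ` is a primitive `e`-th root of unity.
(For `4 ≤ M` there are no elliptic points: `e = 1`, `γ₀ = 1`.) -/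
def IsChartAt1 (M : ℕ) [NeZero M] (v : Place ℂ (FC1 M)) (τ : ℍ) (e : ℕ) : Prop :=
  0 < e ∧
  (∃ γ₀ : SL(2, ℤ), γ₀ ∈ Gamma1 M ∧ γ₀ • τ = τ ∧
    IsPrimitiveRoot ((((γ₀ 1 0 : ℤ) : ℂ) * (τ : ℂ) + ((γ₀ 1 1 : ℤ) : ℂ)) ^ 2) e) ∧
  ∀ (w : ℤ) (A B : ModularForm (Gamma1 M) w) (x : FC1 M), A ≠ 0 → IsRatio1 M x A B →
    (e : ℤ) * v.ord x = ordAt A τ - ordAt B τ

/-- A chart of the place `v` at the cusp `g ∞`: `h > 0` with `g T^h g⁻¹ ∈ Γ₁(M)` (so that
`A ∣[w] g` has period `h`; then it has period `h * e` as well), and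
`e · ord_v (A/B) = ord_{q_{he}} (A ∣ g) - ord_{q_{he}} (B ∣ g)`. -/
def IsChartCusp1 (M : ℕ) [NeZero M] (v : Place ℂ (FC1 M)) (g : SL(2, ℤ)) (h e : ℕ) : Prop :=
  0 < h ∧ 0 < e ∧ g * ModularGroup.T ^ h * g⁻¹ ∈ Gamma1 M ∧
  ∀ (w : ℤ) (A B : ModularForm (Gamma1 M) w) (x : FC1 M), A ≠ 0 → IsRatio1 M x A B →
    (e : ℤ) * v.ord x = ordInf (h * e) (⇑A ∣[w] g) - ordInf (h * e) (⇑B ∣[w] g)

/-- (D2a) places → points: every place of `FC1 M` has a chart at a point of `ℍ` or at a cusp. -/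
def DictD2a1 (M : ℕ) [NeZero M] : Prop :=
  ∀ v : Place ℂ (FC1 M),
    (∃ (τ : ℍ) (e : ℕ), IsChartAt1 M v τ e) ∨ (∃ (g : SL(2, ℤ)) (h e : ℕ), IsChartCusp1 M v g h e)

/-- (D2b) points → places: every `τ ∈ ℍ` is the centre of a chart of some place. -/
def DictD2b1 (M : ℕ) [NeZero M] : Prop :=
  ∀ τ : ℍ, ∃ (v : Place ℂ (FC1 M)) (e : ℕ), IsChartAt1 M v τ e

/-- (HPD) principal divisors of `FC1 M` exist (finite support) and have degree `0`. -/
def DictHPD1 (M : ℕ) [NeZero M] : Prop := HasPrincipalDivisors ℂ (FC1 M)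

/-- (CONST) an element of `FC1 M` without zeros and poles is a constant. -/
def DictConst1 (M : ℕ) [NeZero M] : Prop :=
  ∀ x : FC1 M, x ≠ 0 → (∀ v : Place ℂ (FC1 M), v.ord x = 0) → ∃ a : ℂ, x = algebraMap ℂ (FC1 M) a

/-! ### (D3) norm description of `T_p` and of the diamonds -/

/-- The norm `F(Γ₁(M) ∩ Γ₀(p)) → F₁(M)` along the inclusion, over a field `L ⊇ ℚ`. -/
def heckeNormOne (L : Type*) [Field L] [Algebra ℚ L] (M p : ℕ) [NeZero M] [NeZero p] :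
    laurentBaseChange L (FOneP M p) →* laurentBaseChange L (FOne M) :=
  Fermat.Agent.F3G.normAlong (qSeriesAlpha L (FOne_le_FOneP M p))

/-- The function `T_p f := Norm_{F(Γ₁(M) ∩ Γ₀(p)) / F₁(M)} (f(q^p))`. -/
def heckeFunOne (L : Type*) [Field L] [Algebra ℚ L] (M p : ℕ) [NeZero M] [NeZero p] :
    laurentBaseChange L (FOne M) →* laurentBaseChange L (FOne M) :=
  (heckeNormOne L M p).comp
    (qSeriesBeta L p (fun _ hy => qExpand_mem_FOneP M p hy) : _ →* _)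

/-- (D3-T) the norm description of `T_p` on functions, in terms of modular forms: if `x = A / B`
then `Norm (x(q^p)) = A' / B'` with
`A' = (A ∣ [p 0; 0 1]) · ∏_{b mod p} ((A ∣ σ) ∣ [1 b; 0 p])`, for ANY `σ ∈ Γ₀(M)` with upper left
entry `≡ p mod M` (same for `B'`). -/
def DictD3One (M p : ℕ) [NeZero M] [NeZero p] : Prop :=
  ∀ σ : SL(2, ℤ), σ ∈ Gamma0 M → ((σ 0 0 : ℤ) : ZMod M) = (p : ZMod M) →
  ∀ (w : ℤ) (A B : ModularForm (Gamma1 M) w) (x : FC1 M), A ≠ 0 → IsRatio1 M x A B →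
    ∀ (w' : ℤ) (A' B' : ModularForm (Gamma1 M) w'),
      (⇑A' = fun z => (⇑A ∣[w] heckeRep p (OnePoint.infty : OnePoint (ZMod p))) z *
          ∏ b : ZMod p, ((⇑A ∣[w] σ) ∣[w] heckeRep p (OnePoint.some b)) z) →
      (⇑B' = fun z => (⇑B ∣[w] heckeRep p (OnePoint.infty : OnePoint (ZMod p))) z *
          ∏ b : ZMod p, ((⇑B ∣[w] σ) ∣[w] heckeRep p (OnePoint.some b)) z) →
      IsRatio1 M (heckeFunOne ℂ M p x) A' B'

/-- `σ` is the diamond automorphism `⟨d⟩` of `FC1 M` (over `ℂ`; cf. `IsDiamond` over `ℚ̄`). -/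
def IsDiamondC (M : ℕ) [NeZero M] (d : (ZMod M)ˣ) (σ : FC1 M ≃ₐ[ℂ] FC1 M) : Prop :=
  (∀ x ∈ divisorExpansions M, ∀ hx : coeffEmb ℂ x ∈ FC1 M,
      σ ⟨coeffEmb ℂ x, hx⟩ = ⟨coeffEmb ℂ x, hx⟩) ∧
    ∀ a : ZMod M, a ≠ 0 → ∀ (h₁ : coeffEmb ℂ (fricke M a) ∈ FC1 M)
      (h₂ : coeffEmb ℂ (fricke M ((d : ZMod M) * a)) ∈ FC1 M),
      σ ⟨coeffEmb ℂ (fricke M a), h₁⟩ = ⟨coeffEmb ℂ (fricke M ((d : ZMod M) * a)), h₂⟩

/-- (D3-δ, existence) the diamond automorphisms of `FC1 M` exist. -/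
def DictDiamondExists (M : ℕ) [NeZero M] : Prop :=
  ∀ d : (ZMod M)ˣ, ∃ σ : FC1 M ≃ₐ[ℂ] FC1 M, IsDiamondC M d σ

/-- (D3-δ) the diamond automorphism `⟨d⟩` in terms of modular forms: if `x = A / B` then
`⟨d⟩ x = (A ∣ γ) / (B ∣ γ)` for every `γ ∈ Γ₀(M)` with upper left entry `≡ d mod M`. -/
def DictD3Diamond (M : ℕ) [NeZero M] : Prop :=
  ∀ (d : (ZMod M)ˣ) (σ : FC1 M ≃ₐ[ℂ] FC1 M), IsDiamondC M d σ →
  ∀ γ : SL(2, ℤ), γ ∈ Gamma0 M → ((γ 0 0 : ℤ) : ZMod M) = (d : ZMod M) →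
  ∀ (w : ℤ) (A B : ModularForm (Gamma1 M) w) (x : FC1 M), IsRatio1 M x A B →
    ∀ (A' B' : ModularForm (Gamma1 M) w), ⇑A' = ⇑A ∣[w] γ → ⇑B' = ⇑B ∣[w] γ →
      IsRatio1 M (σ x) A' B'

end Fermat.Agent.S48WA2
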