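/-
S48 wall (W), BLOCK A, seat DESC (A4) main part (helper89): the descent `ℂ → ℚ̄` for `X₁(M)`.

Port of `F3/I2/Descent/{Final,Uncond}.lean` from `modularFunctionFieldFull N` to `FOne M`:
* `descBcOne M hQ hC : JOne M →+ Pic0 ℂ (FC1 M)` the base change (coefficientwise embedding
  `ℚ̄ → ℂ`, algebra structure `Fermat.Agent.F3I2.descAlgebraQbarC`);
* `descBcOne_injective`, `descBcOne_surjective_torsion`, `descBcOne_heckeOne`;
* `descentOne_of_aut` : `DescentOne M` from the compatibility of `bc` with the diamond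
  automorphisms (seat DESC-AUT, helper87, `A/DescAut.lean`).
Generic part: a finite extension of a function field in one variable is one
(`desc_isFunctionFieldOver_map`), hence all its places have degree one over an algebraically
closed field, and `bc` commutes with the norm correspondence `qSeriesHecke`.
-/
import Mathlib
import Fermat.Agent.S48.W.A.InterfacesC
import Fermat.Agent.F3.I2.Descent.Final
import Fermat.Agent.F3.I2.Descent.HeckeBc
import Fermat.Agent.Lib.ConstExt.DescInst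

set_option autoImplicit false
set_option linter.style.haveILetI false
set_option linter.unusedSectionVars false

noncomputable section

namespace Fermat.Agent.S48WA

open ModularCurve AlgebraicCurve IntermediateField Fermat.Agent.S48W Fermat.Agent.F3I2
  Fermat.Agent.RR Fermat.Agent.S24Diff

local notation "Kb" => AlgebraicClosure ℚ

/-! ### finite extensions of function fields in one variable -/

section FF

variable {K F F' : Type*} [Field K] [Field F] [Field F'] [Algebra K F] [Algebra K F']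

/-- a finite extension of a function field in one variable is a function field in one
variable. -/
theorem desc_isFunctionFieldOver_map (φ : F →ₐ[K] F') (hfin : FiniteAlong K φ) {x : F}
    (h : IsFunctionFieldOver K F x) : IsFunctionFieldOver K F' (φ x) := by
  refine ⟨fun h' => h.transcendental ((isAlgebraic_algHom_iff φ φ.injective).mp h'), ?_⟩
  letI := algebraAlong φ
  haveI := isScalarTower_along φ
  haveI : Module.Finite F F' := hfin
  haveI := h.finite
  letI : Algebra K⟮x⟯ F' := ((algebraMap F F').comp (algebraMap K⟮x⟯ F)).toAlgebra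
  haveI : IsScalarTower K⟮x⟯ F F' := IsScalarTower.of_algebraMap_eq fun _ => rfl
  haveI : Module.Finite K⟮x⟯ F' := Module.Finite.trans F F'
  obtain ⟨S, hS⟩ := Module.Finite.fg_top (R := K⟮x⟯) (M := F')
  refine ⟨⟨S, ?_⟩⟩
  rw [eq_top_iff]
  rintro z -
  have hz : z ∈ Submodule.span K⟮x⟯ (S : Set F') := by
    rw [hS]
    trivial
  induction hz using Submodule.span_induction with
  | mem w hw => exact Submodule.subset_span hw
  | zero => exact zero_mem _
  | add a b _ _ ha hb => exact add_mem ha hb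
  | smul c w _ hw =>
    have hc : φ (c : F) ∈ K⟮φ x⟯ := by
      have h1 : φ (c : F) ∈ (K⟮x⟯).map φ := ⟨c, c.2, rfl⟩
      rw [IntermediateField.adjoin_map, Set.image_singleton] at h1
      exact h1
    have h1 : c • w = (⟨φ (c : F), hc⟩ : K⟮φ x⟯) • w := rfl
    rw [h1]
    exact Submodule.smul_mem _ _ hw

/-- all places of a finite extension of an `IsRRField` over an algebraically closed field have
degree one. -/
theorem desc_deg_one_of_finiteAlong [IsAlgClosed K] (hF : IsRRField K F) (φ : F →ₐ[K] F')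
    (hfin : FiniteAlong K φ) (v : Place K F') : v.deg = 1 := by
  obtain ⟨x, hx, hfd, -⟩ := hF.exists_x
  exact Fermat.Agent.S24Res.deg_eq_one (desc_isFunctionFieldOver_map φ hfin ⟨hx, hfd⟩) v

end FF

/-! ### `bc` commutes with the norm correspondence of `q`-series fields -/

section Generic

variable {K K' : Type*} [Field K] [Field K'] [Algebra ℚ K] [Algebra ℚ K'] [Algebra K K']
variable {F₀ F₁ : IntermediateField ℚ (LaurentSeries ℚ)}

theorem descTheta_qSeriesAlpha (h : F₀ ≤ F₁) (f : laurentBaseChange K F₀) :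
    descTheta K K' F₁ (qSeriesAlpha K h f) = qSeriesAlpha K' h (descTheta K K' F₀ f) := by
  apply Subtype.ext
  simp only [coe_descTheta, coe_qSeriesAlpha]

theorem descTheta_qSeriesBeta (p : ℕ) [NeZero p] (hF : ∀ y ∈ F₀, qExpand ℚ p y ∈ F₁)
    (f : laurentBaseChange K F₀) :
    descTheta K K' F₁ (qSeriesBeta K p hF f) = qSeriesBeta K' p hF (descTheta K K' F₀ f) := by
  apply Subtype.ext
  simp only [coe_descTheta, coe_qSeriesBeta]
  exact coeffMap_qExpand_w _ p _

/-- **`bc` commutes with the norm correspondence** `qSeriesHecke`. -/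
theorem desc_bc_qSeriesHecke (P₁ : DescPlaces K K' F₀) (P₂ : DescPlaces K K' F₁) (h : F₀ ≤ F₁)
    (p : ℕ) [NeZero p] (hF : ∀ y ∈ F₀, qExpand ℚ p y ∈ F₁)
    (hK₁ : IsRRField K (laurentBaseChange K F₀))
    (hK₁' : IsRRField K' (laurentBaseChange K' F₀))
    (hK₂ : ∀ v : Place K (laurentBaseChange K F₁), v.deg = 1)
    (hK₂' : ∀ v : Place K' (laurentBaseChange K' F₁), v.deg = 1)
    (hH : QSeriesInputs K h p hF) (hH' : QSeriesInputs K' h p hF)
    (x : Pic0 K (laurentBaseChange K F₀)) :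
    P₁.bc hK₁ hK₁' (qSeriesHecke K h p hF x)
      = qSeriesHecke K' h p hF (P₁.bc hK₁ hK₁' x) := by
  rw [qSeriesHecke, dif_pos hH, qSeriesHecke, dif_pos hH']
  haveI := hH.snd.snd.fst
  haveI := hH'.snd.snd.fst
  exact P₁.bc_correspondence P₂ (qSeriesBeta K p hF) (qSeriesAlpha K h)
    (qSeriesBeta K' p hF) (qSeriesAlpha K' h) hH.snd.fst hH'.snd.fst hH.fst hH'.fst
    (descTheta_qSeriesBeta p hF) (descTheta_qSeriesAlpha h) hK₁ hK₁' hK₂ hK₂'
    hH.snd.snd.snd.snd.1 hH.snd.snd.snd.fst hH.snd.snd.snd.snd.2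
    hH'.snd.snd.snd.snd.1 hH'.snd.snd.snd.fst hH'.snd.snd.snd.snd.2 x

end Generic

/-! ### the descent for `X₁(M)` -/

section One

variable (M : ℕ) [NeZero M]

/-- the place extension data `ℚ̄ ⊂ ℂ` for `F₁(M)`. -/
def descPlacesOne (hQ : IsRRField Kb (FOneBar M)) :
    @DescPlaces Kb ℂ _ _ _ _ descAlgebraQbarC (FOne M) :=
  letI := descAlgebraQbarC
  Fermat.Agent.ConstExt.descPlacesOfRR Kb ℂ (FOne M) hQ

/-- **the base change** `J₁(M)(ℚ̄) = Pic⁰ (ℚ̄ F₁(M)) →+ Pic⁰ (ℂ F₁(M))`. -/
def descBcOne (hQ : IsRRField Kb (FOneBar M)) (hC : IsRRField ℂ (FC1 M)) :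
    JOne M →+ Pic0 ℂ (FC1 M) :=
  letI := descAlgebraQbarC
  (descPlacesOne M hQ).bc hQ hC

/-- **`bc` is injective.** -/
theorem descBcOne_injective (hQ : IsRRField Kb (FOneBar M)) (hC : IsRRField ℂ (FC1 M)) :
    Function.Injective (descBcOne M hQ hC) :=
  letI := descAlgebraQbarC
  (descPlacesOne M hQ).bc_injective hQ hC

/-- **`bc` is onto the `n`-torsion** as soon as the `n`-torsion over `ℂ` is finite. -/
theorem descBcOne_surjective_torsion (hQ : IsRRField Kb (FOneBar M))
    (hC : IsRRField ℂ (FC1 M)) (n : ℕ) (hn : 0 < n)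
    (hfin : {c : Pic0 ℂ (FC1 M) | n • c = 0}.Finite)
    (x' : Pic0 ℂ (FC1 M)) (hx' : n • x' = 0) :
    ∃ x : JOne M, descBcOne M hQ hC x = x' ∧ n • x = 0 :=
  letI := descAlgebraQbarC
  (descPlacesOne M hQ).bc_surjective_torsion hQ hC n hn hfin x' hx'

/-- **`bc` commutes with `T_p`.** -/
theorem descBcOne_heckeOne (hQ : IsRRField Kb (FOneBar M)) (hC : IsRRField ℂ (FC1 M))
    (p : Nat.Primes)
    (hHQ : haveI : NeZero (p : ℕ) := ⟨p.2.ne_zero⟩; HeckeInputsOne M p)
    (hHC : haveI : NeZero (p : ℕ) := ⟨p.2.ne_zero⟩; HeckeInputsOneC M p) (y : JOne M) :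
    descBcOne M hQ hC (heckeOne M p y) = heckeOneC M p (descBcOne M hQ hC y) := by
  letI := descAlgebraQbarC
  haveI : NeZero (p : ℕ) := ⟨p.2.ne_zero⟩
  have hK₂ : ∀ v : Place Kb (laurentBaseChange Kb (FOneP M p)), v.deg = 1 :=
    desc_deg_one_of_finiteAlong hQ (qSeriesAlpha Kb (FOne_le_FOneP M p)) hHQ.snd.snd.snd.fst
  have hK₂' : ∀ v : Place ℂ (laurentBaseChange ℂ (FOneP M p)), v.deg = 1 :=
    desc_deg_one_of_finiteAlong hC (qSeriesAlpha ℂ (FOne_le_FOneP M p)) hHC.snd.snd.snd.fst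
  exact desc_bc_qSeriesHecke (descPlacesOne M hQ)
    (Fermat.Agent.ConstExt.descPlaces Kb ℂ (FOneP M p)
      (Fermat.Agent.ConstExt.resConst_of_deg_one hK₂))
    (FOne_le_FOneP M p) p (fun _ hy => qExpand_mem_FOneP M p hy) hQ hC hK₂ hK₂' hHQ hHC y

/-- **(A4) the descent**, modulo the compatibility with the diamond automorphisms
(seat DESC-AUT). -/
theorem descentOne_of_aut (hQ : IsRRField Kb (FOneBar M)) (hC : IsRRField ℂ (FC1 M))
    (hfin : ∀ n : ℕ, n ≠ 0 → {c : Pic0 ℂ (FC1 M) | n • c = 0}.Finite)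
    (hHQ : ∀ p : Nat.Primes, Nat.Coprime (p : ℕ) M →
      haveI : NeZero (p : ℕ) := ⟨p.2.ne_zero⟩; HeckeInputsOne M p)
    (hHC : ∀ p : Nat.Primes, Nat.Coprime (p : ℕ) M →
      haveI : NeZero (p : ℕ) := ⟨p.2.ne_zero⟩; HeckeInputsOneC M p)
    (hAut : ∀ (d : (ZMod M)ˣ) (σ : FOneBar M ≃ₐ[Kb] FOneBar M) (σ' : FC1 M ≃ₐ[ℂ] FC1 M),
      IsDiamond M d σ → Fermat.Agent.S48WA2.IsDiamondC M d σ' →
        ∀ y : JOne M, descBcOne M hQ hC (σ • y) = σ' • descBcOne M hQ hC y) :
    DescentOne M :=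
  ⟨descBcOne M hQ hC, descBcOne_injective M hQ hC,
    fun n hn x' hx' =>
      (descBcOne_surjective_torsion M hQ hC n hn (hfin n hn.ne') x' hx').imp fun _ h => h.1,
    fun p hp y => descBcOne_heckeOne M hQ hC p (hHQ p hp) (hHC p hp) y,
    hAut⟩

end One

end Fermat.Agent.S48WA
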