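/-
S48 wall (W), BLOCK A, seat DESC-AUT (helper87; split of DESC by helper43): the base change
`bc : Pic⁰ (K F₀) → Pic⁰ (K' F₀)` commutes with automorphisms.

GENERIC in `F₀` (`K ⊆ K'` fields of characteristic `0`, `P : DescPlaces K K' F₀`):
* `descAut_ext_smul`    : `σ` of `K F₀`, `σ'` of `K' F₀` with `θ ∘ σ = σ' ∘ θ` (`θ = descTheta`) ⟹
                          `ext (σ • v) = σ' • ext v`;
* `descAut_bcDiv_smul`  : `bcDiv (σ • D) = σ' • bcDiv D`;
* `bc_smul_of_comm`     : `bc (σ • y) = σ' • bc y`;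
* `descAut_intertwine_of_gen` : if `F₀ = ℚ(G)` and `σ`, `σ'` map the generators `x ∈ G` (viewed in
  `K F₀`, `K' F₀`) to THE SAME element `y ∈ F₀`, then `θ ∘ σ = σ' ∘ θ`.
For the diamonds of `X₁(M)`:
* `descTheta_diamond_comm` : `IsDiamond M d σ`, `IsDiamondC M d σ'` ⟹ `θ ∘ σ = σ' ∘ θ`;
* `descAut_bc_diamond`  : `bc (σ • y) = σ' • bc y` for every `P : DescPlaces ℚ̄ ℂ (FOne M)`.
-/
import Mathlib
import Fermat.Agent.S48.W.A.InterfacesC
import Fermat.Agent.F3.I2.Descent.Final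

set_option autoImplicit false
set_option linter.style.haveILetI false

noncomputable section

namespace Fermat.Agent.S48WA

open ModularCurve HahnSeries AlgebraicCurve Fermat.Agent.RR Fermat.Agent.F3I2 Fermat.Agent.S48W
open Fermat.Agent.S48WA2 (IsDiamondC)

local notation "Kb" => AlgebraicClosure ℚ

section Generic

variable {K K' : Type*} [Field K] [Field K'] [Algebra ℚ K] [Algebra ℚ K'] [Algebra K K']
variable {F₀ : IntermediateField ℚ (LaurentSeries ℚ)}

/-- The extension of places commutes with intertwined automorphisms. -/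
theorem descAut_ext_smul (P : DescPlaces K K' F₀)
    (σ : laurentBaseChange K F₀ ≃ₐ[K] laurentBaseChange K F₀)
    (σ' : laurentBaseChange K' F₀ ≃ₐ[K'] laurentBaseChange K' F₀)
    (h : ∀ f, descTheta K K' F₀ (σ f) = σ' (descTheta K K' F₀ f))
    (v : Place K (laurentBaseChange K F₀)) : P.ext (σ • v) = σ' • P.ext v := by
  refine (P.eq_ext_of_ord (σ • v) (σ' • P.ext v) fun f => ?_).symm
  obtain ⟨g, rfl⟩ := σ.surjective f
  rw [h g, Place.ord_smul, Place.ord_smul, P.ord_ext]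

/-- The base change of divisors commutes with intertwined automorphisms. -/
theorem descAut_bcDiv_smul (P : DescPlaces K K' F₀)
    (σ : laurentBaseChange K F₀ ≃ₐ[K] laurentBaseChange K F₀)
    (σ' : laurentBaseChange K' F₀ ≃ₐ[K'] laurentBaseChange K' F₀)
    (h : ∀ f, descTheta K K' F₀ (σ f) = σ' (descTheta K K' F₀ f))
    (D : Divisor K (laurentBaseChange K F₀)) : P.bcDiv (σ • D) = σ' • P.bcDiv D := by
  induction D using Finsupp.induction with
  | zero => simp
  | single_add v n D _ _ ih =>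
    rw [smul_add, map_add, map_add, smul_add, ih, Divisor.smul_single, DescPlaces.bcDiv_single,
      DescPlaces.bcDiv_single, Divisor.smul_single, descAut_ext_smul P σ σ' h]

/-- **The base change of divisor classes commutes with intertwined automorphisms.** -/
theorem bc_smul_of_comm (P : DescPlaces K K' F₀)
    (hK : IsRRField K (laurentBaseChange K F₀)) (hK' : IsRRField K' (laurentBaseChange K' F₀))
    (σ : laurentBaseChange K F₀ ≃ₐ[K] laurentBaseChange K F₀)
    (σ' : laurentBaseChange K' F₀ ≃ₐ[K'] laurentBaseChange K' F₀)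
    (h : ∀ f, descTheta K K' F₀ (σ f) = σ' (descTheta K K' F₀ f))
    (y : Pic0 K (laurentBaseChange K F₀)) : P.bc hK hK' (σ • y) = σ' • P.bc hK hK' y := by
  obtain ⟨D, rfl⟩ := Pic0.mk_surjective y
  rw [Pic0.smul_mk, DescPlaces.bc_mk, DescPlaces.bc_mk, Pic0.smul_mk]
  congr 1
  apply Subtype.ext
  rw [DescPlaces.coe_bcDegZero, Pic0.coe_degZeroSMulHom, Pic0.coe_degZeroSMulHom,
    DescPlaces.coe_bcDegZero]
  exact descAut_bcDiv_smul P σ σ' h (D : Divisor K _)

/-- Two ring homomorphisms on `K F₀` which agree on the constants and on the `q`-series with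
rational coefficients agree. -/
theorem descAut_ringHom_ext {R : Type*} [Field R]
    (A B : laurentBaseChange K F₀ →+* R)
    (hconst : ∀ a : K, A (algebraMap K _ a) = B (algebraMap K _ a))
    (hrat : ∀ (x : LaurentSeries ℚ) (hx : x ∈ F₀),
      A ⟨coeffEmb K x, coeffEmb_mem_laurentBaseChange K hx⟩
        = B ⟨coeffEmb K x, coeffEmb_mem_laurentBaseChange K hx⟩)
    (f : laurentBaseChange K F₀) : A f = B f := by
  obtain ⟨z, hz⟩ := f
  have key : ∀ (z : LaurentSeries K)
      (_ : z ∈ Subfield.closure (Set.range (algebraMap K (LaurentSeries K)) ∪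
        (⇑(coeffEmb K) '' (F₀ : Set (LaurentSeries ℚ)))))
      (hz' : z ∈ laurentBaseChange K F₀), A ⟨z, hz'⟩ = B ⟨z, hz'⟩ := by
    intro z hz
    induction hz using Subfield.closure_induction with
    | mem y hy =>
      intro hz'
      rcases hy with ⟨a, rfl⟩ | ⟨x, hx, rfl⟩
      · exact hconst a
      · exact hrat x hx
    | one =>
      intro hz'
      have e : (⟨1, hz'⟩ : laurentBaseChange K F₀) = 1 := rfl
      rw [e, map_one, map_one]
    | add x y hx hy ihx ihy =>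
      intro hz'
      have hx' : x ∈ laurentBaseChange K F₀ := mem_laurentBaseChange_iff.2 hx
      have hy' : y ∈ laurentBaseChange K F₀ := mem_laurentBaseChange_iff.2 hy
      have e : (⟨x + y, hz'⟩ : laurentBaseChange K F₀) = ⟨x, hx'⟩ + ⟨y, hy'⟩ := rfl
      rw [e, map_add, map_add, ihx hx', ihy hy']
    | neg x hx ihx =>
      intro hz'
      have hx' : x ∈ laurentBaseChange K F₀ := mem_laurentBaseChange_iff.2 hx
      have e : (⟨-x, hz'⟩ : laurentBaseChange K F₀) = -⟨x, hx'⟩ := rfl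
      rw [e, map_neg, map_neg, ihx hx']
    | inv x hx ihx =>
      intro hz'
      have hx' : x ∈ laurentBaseChange K F₀ := mem_laurentBaseChange_iff.2 hx
      have e : (⟨x⁻¹, hz'⟩ : laurentBaseChange K F₀) = (⟨x, hx'⟩)⁻¹ := rfl
      rw [e, map_inv₀, map_inv₀, ihx hx']
    | mul x y hx hy ihx ihy =>
      intro hz'
      have hx' : x ∈ laurentBaseChange K F₀ := mem_laurentBaseChange_iff.2 hx
      have hy' : y ∈ laurentBaseChange K F₀ := mem_laurentBaseChange_iff.2 hy
      have e : (⟨x * y, hz'⟩ : laurentBaseChange K F₀) = ⟨x, hx'⟩ * ⟨y, hy'⟩ := rfl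
      rw [e, map_mul, map_mul, ihx hx', ihy hy']
  exact key z (mem_laurentBaseChange_iff.1 hz) hz

/-- The embedding `F₀ → K F₀` of the `q`-series with rational coefficients. -/
def descAutEmb (K : Type*) [Field K] [Algebra ℚ K] (F₀ : IntermediateField ℚ (LaurentSeries ℚ)) :
    F₀ →+* laurentBaseChange K F₀ where
  toFun x := ⟨coeffEmb K (x : LaurentSeries ℚ), coeffEmb_mem_laurentBaseChange K x.2⟩
  map_one' := Subtype.ext (map_one (coeffEmb K))
  map_zero' := Subtype.ext (map_zero (coeffEmb K))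
  map_mul' _ _ := Subtype.ext (map_mul (coeffEmb K) _ _)
  map_add' _ _ := Subtype.ext (map_add (coeffEmb K) _ _)

theorem descAutEmb_apply (x : LaurentSeries ℚ) (hx : x ∈ F₀) :
    descAutEmb K F₀ ⟨x, hx⟩ = ⟨coeffEmb K x, coeffEmb_mem_laurentBaseChange K hx⟩ := rfl

/-- Two ring homomorphisms on `ℚ(G)` which agree on `G` agree. -/
theorem descAut_ringHom_ext_adjoin {R : Type*} [Field R] [CharZero R] {G : Set (LaurentSeries ℚ)}
    (φ ψ : IntermediateField.adjoin ℚ G →+* R)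
    (h : ∀ (x : LaurentSeries ℚ) (hx : x ∈ G),
      φ ⟨x, IntermediateField.subset_adjoin ℚ G hx⟩ = ψ ⟨x, IntermediateField.subset_adjoin ℚ G hx⟩)
    (f : IntermediateField.adjoin ℚ G) : φ f = ψ f := by
  obtain ⟨z, hz⟩ := f
  induction hz using IntermediateField.adjoin_induction with
  | mem x hx => exact h x hx
  | algebraMap a =>
    have e : (⟨algebraMap ℚ (LaurentSeries ℚ) a, IntermediateField.algebraMap_mem _ a⟩ :
        IntermediateField.adjoin ℚ G) = ((a : ℚ) : IntermediateField.adjoin ℚ G) := by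
      apply Subtype.ext
      simp
    rw [e, map_ratCast, map_ratCast]
  | add x y hx hy ihx ihy =>
    have e : (⟨x + y, add_mem hx hy⟩ : IntermediateField.adjoin ℚ G) = ⟨x, hx⟩ + ⟨y, hy⟩ := rfl
    rw [e, map_add, map_add, ihx, ihy]
  | inv x hx ihx =>
    have e : (⟨x⁻¹, inv_mem hx⟩ : IntermediateField.adjoin ℚ G) = (⟨x, hx⟩)⁻¹ := rfl
    rw [e, map_inv₀, map_inv₀, ihx]
  | mul x y hx hy ihx ihy =>
    have e : (⟨x * y, mul_mem hx hy⟩ : IntermediateField.adjoin ℚ G) = ⟨x, hx⟩ * ⟨y, hy⟩ := rfl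
    rw [e, map_mul, map_mul, ihx, ihy]

/-- Two ring homomorphisms on `F₀ = ℚ(G)` which agree on `G` agree. -/
theorem descAut_ringHom_ext_gen {R : Type*} [Field R] [CharZero R] {G : Set (LaurentSeries ℚ)}
    (hG : F₀ = IntermediateField.adjoin ℚ G) (φ ψ : F₀ →+* R)
    (h : ∀ (x : LaurentSeries ℚ) (_ : x ∈ G) (hx' : x ∈ F₀), φ ⟨x, hx'⟩ = ψ ⟨x, hx'⟩)
    (f : F₀) : φ f = ψ f := by
  subst hG
  exact descAut_ringHom_ext_adjoin φ ψ (fun x hx => h x hx _) f

/-- **Intertwining from the generators**: if `σ` and `σ'` map every generator `x ∈ G` of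
`F₀ = ℚ(G)` to the same element `y ∈ F₀`, then `θ ∘ σ = σ' ∘ θ`. -/
theorem descAut_intertwine_of_gen [CharZero K'] {G : Set (LaurentSeries ℚ)}
    (hG : F₀ = IntermediateField.adjoin ℚ G)
    (σ : laurentBaseChange K F₀ ≃ₐ[K] laurentBaseChange K F₀)
    (σ' : laurentBaseChange K' F₀ ≃ₐ[K'] laurentBaseChange K' F₀)
    (hgen : ∀ x ∈ G, ∃ y ∈ F₀,
      (∀ (h₁ : coeffEmb K x ∈ laurentBaseChange K F₀)
          (h₂ : coeffEmb K y ∈ laurentBaseChange K F₀),
        σ ⟨coeffEmb K x, h₁⟩ = ⟨coeffEmb K y, h₂⟩) ∧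
      ∀ (h₁ : coeffEmb K' x ∈ laurentBaseChange K' F₀)
          (h₂ : coeffEmb K' y ∈ laurentBaseChange K' F₀),
        σ' ⟨coeffEmb K' x, h₁⟩ = ⟨coeffEmb K' y, h₂⟩)
    (f : laurentBaseChange K F₀) :
    descTheta K K' F₀ (σ f) = σ' (descTheta K K' F₀ f) := by
  let A : laurentBaseChange K F₀ →+* laurentBaseChange K' F₀ :=
    (descTheta K K' F₀).comp (σ : laurentBaseChange K F₀ →+* laurentBaseChange K F₀)
  let B : laurentBaseChange K F₀ →+* laurentBaseChange K' F₀ :=
    (σ' : laurentBaseChange K' F₀ →+* laurentBaseChange K' F₀).comp (descTheta K K' F₀)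
  show A f = B f
  refine descAut_ringHom_ext A B (fun a => ?_) (fun x hx => ?_) f
  · show descTheta K K' F₀ (σ (algebraMap K _ a)) = σ' (descTheta K K' F₀ (algebraMap K _ a))
    rw [σ.commutes, descTheta_algebraMap, σ'.commutes]
  · refine descAut_ringHom_ext_gen hG (A.comp (descAutEmb K F₀)) (B.comp (descAutEmb K F₀))
      (fun x hx hxF => ?_) ⟨x, hx⟩
    obtain ⟨y, hy, h₁, h₂⟩ := hgen x hx
    show descTheta K K' F₀ (σ ⟨coeffEmb K x, coeffEmb_mem_laurentBaseChange K hxF⟩)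
      = σ' (descTheta K K' F₀ ⟨coeffEmb K x, coeffEmb_mem_laurentBaseChange K hxF⟩)
    rw [h₁ _ (coeffEmb_mem_laurentBaseChange K hy), descTheta_coeffEmb K K' F₀ hy,
      descTheta_coeffEmb K K' F₀ hxF, h₂ _ (coeffEmb_mem_laurentBaseChange K' hy)]

end Generic

/-! ### the diamonds of `X₁(M)` -/

section Diamond

variable (M : ℕ) [NeZero M]

/-- **The diamond automorphisms over `ℚ̄` and over `ℂ` are intertwined by `θ`.** -/
theorem descTheta_diamond_comm (d : (ZMod M)ˣ) (σ : FOneBar M ≃ₐ[Kb] FOneBar M)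
    (σ' : FC1 M ≃ₐ[ℂ] FC1 M) (hσ : IsDiamond M d σ) (hσ' : IsDiamondC M d σ')
    (f : FOneBar M) :
    letI := descAlgebraQbarC
    descTheta Kb ℂ (FOne M) (σ f) = σ' (descTheta Kb ℂ (FOne M) f) := by
  letI := descAlgebraQbarC
  refine descAut_intertwine_of_gen (K := Kb) (K' := ℂ) (G := genOne M) rfl σ σ' ?_ f
  rintro x (hx | ⟨a, ha, rfl⟩)
  · refine ⟨x, IntermediateField.subset_adjoin ℚ _ (Or.inl hx), fun h₁ h₂ => ?_, fun h₁ h₂ => ?_⟩
    · exact hσ.1 x hx h₁
    · exact hσ'.1 x hx h₁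
  · have hda : (d : ZMod M) * a ≠ 0 := by
      intro h0
      apply ha
      have := congrArg (fun t => ((d⁻¹ : (ZMod M)ˣ) : ZMod M) * t) h0
      simpa using this
    refine ⟨fricke M ((d : ZMod M) * a), fricke_mem M hda, fun h₁ h₂ => ?_, fun h₁ h₂ => ?_⟩
    · exact hσ.2 a ha h₁ h₂
    · exact hσ'.2 a ha h₁ h₂

/-- **`bc` commutes with the diamonds**, for every system of place extensions `ℚ̄ ⊂ ℂ`. -/
theorem descAut_bc_diamond
    (P : @DescPlaces Kb ℂ _ _ _ _ descAlgebraQbarC (FOne M))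
    (hQ : IsRRField Kb (FOneBar M)) (hC : IsRRField ℂ (FC1 M))
    (d : (ZMod M)ˣ) (σ : FOneBar M ≃ₐ[Kb] FOneBar M) (σ' : FC1 M ≃ₐ[ℂ] FC1 M)
    (hσ : IsDiamond M d σ) (hσ' : IsDiamondC M d σ') (y : JOne M) :
    letI := descAlgebraQbarC
    P.bc hQ hC (σ • y) = σ' • P.bc hQ hC y := by
  letI := descAlgebraQbarC
  exact bc_smul_of_comm P hQ hC σ σ' (descTheta_diamond_comm M d σ σ' hσ hσ') y

end Diamond

end Fermat.Agent.S48WA
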