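/-
S48 wall (W), BLOCK A, seat DESC (A4), final statement (helper89 + helper87):
  `descentOne_of : DescentOne M`
from Riemann-Roch for `ℚ̄ F₁(M)`, `ℂ F₁(M)`, finiteness of the torsion over `ℂ` and the inputs of
the Hecke correspondences over `ℚ̄` and `ℂ`.
(`Desc.lean`: bc, injective, onto torsion, Hecke; `DescAut.lean`: diamonds.)
-/
import Mathlib
import Fermat.Agent.S48.W.A.Desc
import Fermat.Agent.S48.W.A.DescAut

set_option autoImplicit false
set_option linter.style.haveILetI false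

noncomputable section

namespace Fermat.Agent.S48WA

open ModularCurve AlgebraicCurve Fermat.Agent.S48W Fermat.Agent.F3I2 Fermat.Agent.RR

local notation "Kb" => AlgebraicClosure ℚ

/-- **(A4) the descent `ℂ → ℚ̄` for `X₁(M)`.** -/
theorem descentOne_of (M : ℕ) [NeZero M] (hQ : IsRRField Kb (FOneBar M))
    (hC : IsRRField ℂ (FC1 M))
    (hfin : ∀ n : ℕ, n ≠ 0 → {c : Pic0 ℂ (FC1 M) | n • c = 0}.Finite)
    (hHQ : ∀ p : Nat.Primes, Nat.Coprime (p : ℕ) M →
      haveI : NeZero (p : ℕ) := ⟨p.2.ne_zero⟩; HeckeInputsOne M p)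
    (hHC : ∀ p : Nat.Primes, Nat.Coprime (p : ℕ) M →
      haveI : NeZero (p : ℕ) := ⟨p.2.ne_zero⟩; HeckeInputsOneC M p) :
    DescentOne M :=
  descentOne_of_aut M hQ hC hfin hHQ hHC fun d σ σ' hσ hσ' y =>
    descAut_bc_diamond M (descPlacesOne M hQ) hQ hC d σ σ' hσ hσ' y

end Fermat.Agent.S48WA
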