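/-
S48 wall (W), block A, seat TFIN (helper61): the pieces which do not depend on the dictionary.

* `tfin_fg_Gamma1`      : `Γ₁(M)` is finitely generated;
* `tfin_exists_character` : CHAR for an arbitrary subgroup `Γ ≤ SL(2, ℤ)`: a holomorphic `h ≠ 0`
  whose `n`-th power is `Γ`-invariant of weight `n k` has a character `χ : Γ → μ_n`.
-/
import Mathlib
import Fermat.Agent.F3.I2.Char
import Fermat.Agent.S22.GammaFG

set_option autoImplicit false

noncomputable section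

namespace Fermat.Agent.S48WATF

open UpperHalfPlane CongruenceSubgroup ModularForm
open scoped MatrixGroups ModularForm Manifold
open Fermat.Agent.F3I2

/-- `Γ₁(M)` is a finitely generated group. -/
theorem tfin_fg_Gamma1 (M : ℕ) [NeZero M] : Group.FG ↥(Gamma1 M) := by
  have : Group.FG (Matrix.SpecialLinearGroup (Fin 2) ℤ) := Fermat.Agent.S22.fg_SL2Z
  exact Subgroup.fg_of_index_ne_zero (Gamma1 M)

/-- **CHAR** for an arbitrary subgroup of `SL(2, ℤ)`. -/
theorem tfin_exists_character {Γ : Subgroup SL(2, ℤ)} {n : ℕ} (hn : n ≠ 0) {k : ℤ} {h : ℍ → ℂ}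
    (hh : MDiff h) (hne : h ≠ 0)
    (hinv : ∀ γ : ↥Γ, (h ^ n) ∣[(n : ℤ) * k] (γ : SL(2, ℤ)) = h ^ n) :
    ∃ χ : ↥Γ →* ℂˣ, (∀ γ, χ γ ^ n = 1) ∧
      ∀ γ : ↥Γ, h ∣[k] (γ : SL(2, ℤ)) = ((χ γ : ℂˣ) : ℂ) • h := by
  classical
  obtain ⟨τ₀, hτ₀⟩ : ∃ τ₀, h τ₀ ≠ 0 := by
    by_contra hcon
    push Not at hcon
    exact hne (funext hcon)
  have hex : ∀ γ : ↥Γ, ∃ ζ : ℂ, ζ ^ n = 1 ∧ ∀ τ, (h ∣[k] (γ : SL(2, ℤ))) τ = ζ * h τ := by
    intro γ
    refine exists_smul_of_pow_eq_pow ?_ hh hne hn ?_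
    · rw [SL_slash]
      exact hh.slash k _
    · intro τ
      have := congrFun (hinv γ) τ
      rw [pow_slash_SL2] at this
      simpa using this
  choose ζ hζn hζ using hex
  have hζ0 : ∀ γ, ζ γ ≠ 0 := by
    intro γ h0
    have := hζn γ
    rw [h0, zero_pow hn] at this
    exact zero_ne_one this
  have huniq : ∀ (a b : ℂ), (∀ τ, a * h τ = b * h τ) → a = b := by
    intro a b hab
    exact mul_right_cancel₀ hτ₀ (hab τ₀)
  have hmul : ∀ γ δ : ↥Γ, ζ (γ * δ) = ζ γ * ζ δ := by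
    intro γ δ
    apply huniq
    intro τ
    rw [← hζ (γ * δ) τ]
    have h1 : h ∣[k] ((γ * δ : ↥Γ) : SL(2, ℤ)) =
        (h ∣[k] (γ : SL(2, ℤ))) ∣[k] (δ : SL(2, ℤ)) := by
      rw [Subgroup.coe_mul, SlashAction.slash_mul]
    have h2 : h ∣[k] (γ : SL(2, ℤ)) = ζ γ • h := by
      ext τ'
      rw [hζ γ τ']
      rfl
    rw [h1, h2, SL_smul_slash]
    simp only [Pi.smul_apply, smul_eq_mul]
    rw [hζ δ τ]
    ring
  have hone : ζ 1 = 1 := by
    have := hmul 1 1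
    rw [mul_one] at this
    exact (mul_right_cancel₀ (hζ0 1) (this.symm.trans (one_mul _).symm)).symm ▸ rfl
  refine ⟨{ toFun := fun γ => Units.mk0 (ζ γ) (hζ0 γ)
            map_one' := Units.ext (by simpa using hone)
            map_mul' := fun γ δ => Units.ext (by simpa using hmul γ δ) }, ?_, ?_⟩
  · intro γ
    apply Units.ext
    simpa using hζn γ
  · intro γ
    ext τ
    rw [hζ γ τ]
    rfl

end Fermat.Agent.S48WATF
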