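/-
S48 wall (W), block A, seat TFIN (helper61), part 1: the analytic order at `τ ∈ ℍ` as an order
function on `FC1 M`.   Port of `F3/TorsFin/OrdVal.lean` to `Γ₁(M)`.

For `x = f / g ∈ FC1 M` (a ratio of modular forms of equal weight on `Γ₁(M)`) put
`tfin_ordVal M τ x = ord_τ f - ord_τ g`.  This is an order function on `FC1 M / ℂ` in the sense of
`F3/TorsFin/PlaceOfVal.lean`.  Hence: if `n` divides the order of `x` at every place of `FC1 M`,
then `n ∣ ord_τ f - ord_τ g` for every `τ`.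
-/
import Fermat.Agent.S48.W.A.K.Ratio
import Fermat.Agent.F3.TorsFin.OrdVal

set_option autoImplicit false
set_option linter.unusedSectionVars false

noncomputable section

namespace Fermat.Agent.S48WA

open UpperHalfPlane CongruenceSubgroup ModularCurve AlgebraicCurve
open scoped MatrixGroups ModularForm Manifold
open Fermat.Agent.S23 Fermat.Agent.S48W Fermat.Agent.S48WA2 Fermat.Agent.F3I2
open Fermat.Agent.S28 Fermat.Agent.S28.QExp
open Fermat.Agent.F3TF (IsOrdFun min_ordAt_le_ordAt_add ordAt_const_smul_one ordAt_one)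

variable {N : ℕ} [NeZero N]

theorem tfin_mdiff_of_isMF {w : ℤ} {f : ℍ → ℂ} (hf : IsMF (G1 N) w f) : MDiff f := by
  obtain ⟨F, rfl⟩ := hf
  exact F.holo'

/-- Sum of two ratios. -/
theorem tfin_isRatioF_add {x x' : FC1 N} {f g f' g' : ℍ → ℂ} (h : IsRatioF N x f g)
    (h' : IsRatioF N x' f' g') : IsRatioF N (x + x') (f * g' + f' * g) (g * g') := by
  obtain ⟨hg, ⟨w, hfm, hgm⟩, h1⟩ := h
  obtain ⟨hg', ⟨w', hfm', hgm'⟩, h2⟩ := h'
  have m1 : IsMF (G1 N) (w + w') (f * g') := hfm.mul hgm'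
  have m2 : IsMF (G1 N) (w + w') (f' * g) := (hfm'.mul hgm).cast (add_comm _ _)
  refine ⟨isMF_mul_ne_zero hgm hgm' hg hg', ⟨w + w', m1.add m2, hgm.mul hgm'⟩, ?_⟩
  rw [qLaurent_add_of_isMF m1 m2, qLaurent_mul_of_isMF hfm hgm', qLaurent_mul_of_isMF hfm' hgm,
    qLaurent_mul_of_isMF hgm hgm', h1, h2]
  push_cast
  ring

theorem tfin_one_ne_zero : (1 : ℍ → ℂ) ≠ 0 := fun h => by
  have := congrFun h ⟨Complex.I, by simp⟩
  simp at this

/-- The constant `a` as a ratio. -/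
theorem tfin_isRatioF_const (N : ℕ) [NeZero N] (a : ℂ) :
    IsRatioF N (algebraMap ℂ (FC1 N) a) (a • (1 : ℍ → ℂ)) 1 := by
  have hone : IsMF (G1 N) 0 (1 : ℍ → ℂ) := IsMF.one
  refine ⟨tfin_one_ne_zero, ⟨0, hone.smul a, hone⟩, ?_⟩
  have e1 : qLaurent (1 : ℍ → ℂ) = 1 := (hasQ_of_isMF hone).unique hasQ_one
  rw [e1, mul_one]
  have h1 : HasQ (a • (1 : ℍ → ℂ)) (HahnSeries.C a) :=
    (hasQ_const a).congr fun τ => by simp
  have h2 := hasQ_of_isMF (hone.smul a)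
  rw [← h1.unique h2]
  show HahnSeries.C a = algebraMap ℂ (LaurentSeries ℂ) a
  rw [algebraMap_eq_single_zero]
  rfl

section

variable [HasDict1 N]

open Classical in
/-- The analytic order of `x ∈ FC1 N` at `τ`. -/
def tfin_ordVal (N : ℕ) [NeZero N] [HasDict1 N] (τ : ℍ) (x : FC1 N) : ℤ :=
  if hx : x = 0 then 0 else
    ordAt (exists_isRatioF_of_ne_zero hx).choose τ -
      ordAt (exists_isRatioF_of_ne_zero hx).choose_spec.choose τ

/-- `tfin_ordVal` may be computed from any ratio. -/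
theorem tfin_ordVal_eq (τ : ℍ) {x : FC1 N} {f g : ℍ → ℂ} (hf : f ≠ 0) (h : IsRatioF N x f g) :
    tfin_ordVal N τ x = ordAt f τ - ordAt g τ := by
  have hx : x ≠ 0 := fun hx => hf (h.eq_zero_iff.mp hx)
  unfold tfin_ordVal
  rw [dif_neg hx]
  obtain ⟨hf₀, h₀⟩ := (exists_isRatioF_of_ne_zero hx).choose_spec.choose_spec
  set f₀ := (exists_isRatioF_of_ne_zero hx).choose
  set g₀ := (exists_isRatioF_of_ne_zero hx).choose_spec.choose
  have hcross : f₀ * g = f * g₀ := h₀.cross h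
  obtain ⟨hg, ⟨w, hfm, hgm⟩, -⟩ := h
  obtain ⟨hg₀, ⟨w₀, hfm₀, hgm₀⟩, -⟩ := h₀
  have e1 := ordAt_mul (tfin_mdiff_of_isMF hfm₀) (tfin_mdiff_of_isMF hgm) hf₀ hg τ
  have e2 := ordAt_mul (tfin_mdiff_of_isMF hfm) (tfin_mdiff_of_isMF hgm₀) hf hg₀ τ
  rw [hcross] at e1
  rw [e1] at e2
  omega

/-- The analytic order at `τ` is an order function on `FC1 N`. -/
theorem tfin_isOrdFun_ordVal (τ : ℍ) : IsOrdFun ℂ (tfin_ordVal N τ) where
  map_mul x y hx hy := by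
    obtain ⟨f, g, hf, h⟩ := exists_isRatioF_of_ne_zero hx
    obtain ⟨f', g', hf', h'⟩ := exists_isRatioF_of_ne_zero hy
    have hm := h.mul h'
    have e1 := tfin_ordVal_eq τ hf h
    have e2 := tfin_ordVal_eq τ hf' h'
    obtain ⟨hg, ⟨w, hfm, hgm⟩, -⟩ := h
    obtain ⟨hg', ⟨w', hfm', hgm'⟩, -⟩ := h'
    have hff' : f * f' ≠ 0 := isMF_mul_ne_zero hfm hfm' hf hf'
    rw [tfin_ordVal_eq τ hff' hm, e1, e2,
      ordAt_mul (tfin_mdiff_of_isMF hfm) (tfin_mdiff_of_isMF hfm') hf hf' τ,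
      ordAt_mul (tfin_mdiff_of_isMF hgm) (tfin_mdiff_of_isMF hgm') hg hg' τ]
    ring
  map_add x y hx hy hxy := by
    obtain ⟨f, g, hf, h⟩ := exists_isRatioF_of_ne_zero hx
    obtain ⟨f', g', hf', h'⟩ := exists_isRatioF_of_ne_zero hy
    have ha := tfin_isRatioF_add h h'
    have hnum : f * g' + f' * g ≠ 0 := fun h0 => hxy (ha.eq_zero_iff.mpr h0)
    rw [tfin_ordVal_eq τ hnum ha, tfin_ordVal_eq τ hf h, tfin_ordVal_eq τ hf' h']
    obtain ⟨hg, ⟨w, hfm, hgm⟩, -⟩ := h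
    obtain ⟨hg', ⟨w', hfm', hgm'⟩, -⟩ := h'
    have m1 : MDiff (f * g') := (tfin_mdiff_of_isMF hfm).mul (tfin_mdiff_of_isMF hgm')
    have m2 : MDiff (f' * g) := (tfin_mdiff_of_isMF hfm').mul (tfin_mdiff_of_isMF hgm)
    have n1 : f * g' ≠ 0 := isMF_mul_ne_zero hfm hgm' hf hg'
    have n2 : f' * g ≠ 0 := isMF_mul_ne_zero hfm' hgm hf' hg
    have key := min_ordAt_le_ordAt_add m1 m2 n1 n2 hnum τ
    rw [ordAt_mul (tfin_mdiff_of_isMF hfm) (tfin_mdiff_of_isMF hgm') hf hg' τ,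
      ordAt_mul (tfin_mdiff_of_isMF hfm') (tfin_mdiff_of_isMF hgm) hf' hg τ] at key
    rw [ordAt_mul (tfin_mdiff_of_isMF hgm) (tfin_mdiff_of_isMF hgm') hg hg' τ]
    omega
  map_const a ha := by
    have hne : a • (1 : ℍ → ℂ) ≠ 0 := by
      intro h0
      have := congrFun h0 ⟨Complex.I, by simp⟩
      simp at this
      exact ha this
    rw [tfin_ordVal_eq τ hne (tfin_isRatioF_const N a), ordAt_const_smul_one ha, ordAt_one]
    rfl

/-- If `n` divides the order of `x` at every place of `FC1 N`, then `n` divides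
`ord_τ f - ord_τ g` for every ratio `x = f / g` and every `τ ∈ ℍ`. -/
theorem tfin_dvd_ordAt_sub_of_forall_place {n : ℤ} {x : FC1 N} {f g : ℍ → ℂ} (hf : f ≠ 0)
    (h : IsRatioF N x f g) (hdiv : ∀ v : Place ℂ (FC1 N), n ∣ v.ord x) (τ : ℍ) :
    n ∣ ordAt f τ - ordAt g τ := by
  have hx : x ≠ 0 := fun hx => hf (h.eq_zero_iff.mp hx)
  rw [← tfin_ordVal_eq τ hf h]
  exact (tfin_isOrdFun_ordVal τ).dvd_of_forall_place_dvd n hx hdiv

end

end Fermat.Agent.S48WA
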