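/-
S48 wall (W), block A, seat TFIN (helper61): **finiteness of the `n`-torsion of `Pic0 (FC1 M)`**.
Port of `F3/TorsFin/{Exists,CharFinite}.lean` to `Γ₁(M)`; the dictionary enters through
`HasDict1 M`.

If `x = f₀ / g₀ ∈ FC1 M` and `n ∣ ord_τ f₀ - ord_τ g₀` for all `τ ∈ ℍ`, then
`f₀ g₀ ^ (n - 1) = h ^ n` for a holomorphic `h` (ROOT), `h` has a character `χ` with `χ ^ n = 1`
(CHAR), `h` is a form with character `χ`, and `x = h ^ n / g₀ ^ n`.  So every class of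
`Pic0 (FC1 M)` killed by `n` satisfies `IsTheta M n χ c` for some `χ` of exponent `n`; the class is
determined by `χ` (`IsTheta.unique`), and `Γ₁(M)` is finitely generated.
-/
import Fermat.Agent.S48.W.A.K.Theta
import Fermat.Agent.S48.W.A.TorsFinOrd
import Fermat.Agent.S48.W.A.TorsFinAux
import Fermat.Agent.F3.TorsFin.CharFinite

set_option autoImplicit false
set_option linter.unusedSectionVars false
set_option linter.style.haveILetI false

noncomputable section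

namespace Fermat.Agent.S48WA

open UpperHalfPlane CongruenceSubgroup ModularCurve AlgebraicCurve
open scoped MatrixGroups ModularForm Manifold
open Fermat.Agent.S23 Fermat.Agent.S48W Fermat.Agent.S48WA2 Fermat.Agent.F3I2
open Fermat.Agent.F3TF (isBoundedAtImInfty_of_pow finite_characters)
open Fermat.Agent.S48WATF

variable {N : ℕ} [NeZero N]

/-- A holomorphic function with a character whose `n`-th power is a modular form is a form with
character. -/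
theorem tfin_isFormChar_of_pow {n : ℕ} (hn : n ≠ 0) {w : ℤ} {h : ℍ → ℂ}
    {χ : ↥(Gamma1 N) →* ℂˣ} (hh : MDiff h)
    (hslash : ∀ γ : ↥(Gamma1 N), h ∣[w] (γ : SL(2, ℤ)) = ((χ γ : ℂˣ) : ℂ) • h)
    (hpow : IsMF (G1 N) ((n : ℤ) * w) (h ^ n)) : IsFormChar N w χ h := by
  refine ⟨hh, hslash, fun g => ?_⟩
  apply isBoundedAtImInfty_of_pow hn
  rw [← pow_slash_SL2]
  exact (isFormChar_of_isMF hpow).bdd g

/-- **ROOT + CHAR.** -/
theorem tfin_exists_formChar_root {n : ℕ} (hn : n ≠ 0) {x : FC1 N} {f₀ g₀ : ℍ → ℂ}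
    (hf₀ : f₀ ≠ 0) (h₀ : IsRatioF N x f₀ g₀)
    (hord : ∀ τ : ℍ, (n : ℤ) ∣ ordAt f₀ τ - ordAt g₀ τ) :
    ∃ (w : ℤ) (h B : ℍ → ℂ) (χ : ↥(Gamma1 N) →* ℂˣ), (∀ γ, χ γ ^ n = 1) ∧
      IsFormChar N w χ h ∧ IsFormChar N w 1 B ∧ h ≠ 0 ∧ B ≠ 0 ∧
      IsRatioF N x (h ^ n) (B ^ n) := by
  have hh₀ := h₀
  obtain ⟨hg₀, ⟨w, hfm, hgm⟩, -⟩ := h₀
  have hn1 : 1 ≤ n := Nat.one_le_iff_ne_zero.mpr hn
  have hpowm : IsMF (G1 N) (w * ((n - 1 : ℕ) : ℤ)) (g₀ ^ (n - 1)) := hgm.pow (n - 1)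
  have hpow0 : g₀ ^ (n - 1) ≠ 0 := isMF_pow_ne_zero hgm hg₀ (n - 1)
  set G : ℍ → ℂ := f₀ * g₀ ^ (n - 1) with hG
  have hcast : w + w * ((n - 1 : ℕ) : ℤ) = (n : ℤ) * w := by
    have : ((n - 1 : ℕ) : ℤ) = (n : ℤ) - 1 := by omega
    rw [this]; ring
  have hGm : IsMF (G1 N) ((n : ℤ) * w) G := (hfm.mul hpowm).cast hcast
  have hG0 : G ≠ 0 := isMF_mul_ne_zero hfm hpowm hf₀ hpow0
  have hGd : MDiff G := tfin_mdiff_of_isMF hGm
  -- the orders of `G` are divisible by `n`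
  have hordG : ∀ τ : ℍ, ∃ m : ℕ, analyticOrderAt (G ∘ ofComplex) (τ : ℂ) = ((n * m : ℕ) : ℕ∞) := by
    intro τ
    have e1 : ordAt G τ = ordAt f₀ τ + ((n - 1 : ℕ) : ℤ) * ordAt g₀ τ := by
      rw [hG, ordAt_mul (tfin_mdiff_of_isMF hfm) (tfin_mdiff_of_isMF hpowm) hf₀ hpow0 τ,
        ordAt_pow (tfin_mdiff_of_isMF hgm) hg₀]
    have e2 : (n : ℤ) ∣ ordAt G τ := by
      have : ordAt G τ = (ordAt f₀ τ - ordAt g₀ τ) + (n : ℤ) * ordAt g₀ τ := by
        rw [e1]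
        have : ((n - 1 : ℕ) : ℤ) = (n : ℤ) - 1 := by omega
        rw [this]; ring
      rw [this]
      exact dvd_add (hord τ) (dvd_mul_right _ _)
    obtain ⟨k, hk⟩ := ENat.ne_top_iff_exists.mp (analyticOrderAt_ne_top_of_ne_zero hGd hG0 τ)
    have e3 : ordAt G τ = (k : ℤ) := by
      unfold ordAt
      rw [← hk]
      simp
    rw [e3] at e2
    obtain ⟨m, hm⟩ := Int.natCast_dvd_natCast.mp e2
    exact ⟨m, by rw [← hk, hm]⟩
  obtain ⟨h, hhd, hhp⟩ := exists_mdiff_root hGd hn hordG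
  have hhG : h ^ n = G := funext fun τ => by simpa using hhp τ
  have hh0 : h ≠ 0 := by
    intro h0
    apply hG0
    rw [← hhG, h0, zero_pow hn]
  have hinv : ∀ γ : ↥(Gamma1 N), (h ^ n) ∣[(n : ℤ) * w] (γ : SL(2, ℤ)) = h ^ n := by
    intro γ
    rw [hhG]
    have := (isFormChar_of_isMF hGm).slash γ
    simpa using this
  obtain ⟨χ, hχ, hslash⟩ := tfin_exists_character hn hhd hh0 hinv
  have hhF : IsFormChar N w χ h := tfin_isFormChar_of_pow hn hhd hslash (hhG ▸ hGm)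
  refine ⟨w, h, g₀, χ, hχ, hhF, isFormChar_of_isMF hgm, hh0, hg₀, ?_⟩
  have hgn : IsMF (G1 N) ((n : ℤ) * w) (g₀ ^ n) := (hgm.pow n).cast (mul_comm _ _)
  refine hh₀.congr (isMF_pow_ne_zero hgm hg₀ n) (hhG ▸ hGm) hgn ?_
  rw [hhG, hG]
  have : g₀ ^ n = g₀ ^ (n - 1) * g₀ := by
    rw [← pow_succ, Nat.sub_add_cancel hn1]
  rw [this]
  ring

variable [HasDict1 N]

/-- **`λ` is defined everywhere (over `ℂ`).**  Every class of `Pic0 (FC1 N)` killed by `n` is the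
class attached to a character of order dividing `n`. -/
theorem tfin_exists_isTheta_of_torsion {n : ℕ} (hn : n ≠ 0) (c : Pic0 ℂ (FC1 N))
    (hc : n • c = 0) : ∃ χ : ↥(Gamma1 N) →* ℂˣ, IsTheta N n χ c := by
  have hc' : (n : ℤ) • c = 0 := by rw [natCast_zsmul]; exact hc
  obtain ⟨D, x, hD, hDc⟩ := exists_isRootDiv_of_torsion n c hc'
  obtain ⟨f₀, g₀, hf₀, h₀⟩ := exists_isRatioF_of_ne_zero hD.1
  have hdiv : ∀ v : Place ℂ (FC1 N), (n : ℤ) ∣ v.ord x := fun v => ⟨_, (hD.2 v).symm⟩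
  obtain ⟨w, h, B, χ, hχ, hh, hB, hh0, hB0, hr⟩ := tfin_exists_formChar_root hn hf₀ h₀
    (fun τ => tfin_dvd_ordAt_sub_of_forall_place hf₀ h₀ hdiv τ)
  exact ⟨χ, hχ, w, h, B, x, D, hh, hB, hh0, hB0, hr, hD, hDc⟩

/-- **(TFIN) finiteness of the `n`-torsion of `Pic0 (FC1 M)`** (`λ` is injective). -/
theorem finite_torsion_FC1 {n : ℕ} (hn : n ≠ 0) : {c : Pic0 ℂ (FC1 N) | n • c = 0}.Finite := by
  classical
  haveI : Group.FG ↥(Gamma1 N) := tfin_fg_Gamma1 N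
  haveI := finite_characters (Γ := ↥(Gamma1 N)) hn
  have hex : ∀ c : {c : Pic0 ℂ (FC1 N) // n • c = 0},
      ∃ χ : ↥(Gamma1 N) →* ℂˣ, IsTheta N n χ c.1 := fun c =>
    tfin_exists_isTheta_of_torsion hn c.1 c.2
  choose χ hχ using hex
  let Φ : {c : Pic0 ℂ (FC1 N) // n • c = 0} → {χ : ↥(Gamma1 N) →* ℂˣ // ∀ γ, χ γ ^ n = 1} :=
    fun c => ⟨χ c, (hχ c).1⟩
  have hΦ : Function.Injective Φ := by
    intro c c' h
    apply Subtype.ext
    have h1 : χ c = χ c' := congrArg Subtype.val h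
    have h2 := hχ c
    rw [h1] at h2
    exact h2.unique hn (hχ c')
  have hfin : Finite ↑{c : Pic0 ℂ (FC1 N) | n • c = 0} := Finite.of_injective Φ hΦ
  exact Set.finite_coe_iff.mp hfin

end Fermat.Agent.S48WA
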