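/-
S48 wall (W), BLOCK A, seat A-INP (helper2), part 2: the inputs of block A over `ℂ`,
UNCONDITIONAL (blocks H and hub A1 are closed), and the descent `ℂ → ℚ̄` from the dictionary.

* (3) `functionFieldOneC M`, `functionFieldOnePC M p`  (helper49's `H/FFL.lean` + `H/Final.lean`);
* (1) `heckeInputsOneC M p`, `heckeInputsOneC_primes M p`;
* (2) `isRRField_FC1_top M`, `isRRField_FOneBar_top M`;
* (4) `diamondExistsOneAll M : S48WA.DiamondExistsOne M`;
* `descentOne_top [HasDict1 M] : DescentOne M`  (DESC of helper89 / helper87 + TFIN of helper61).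
-/
import Mathlib
import Fermat.Agent.S48.W.A.Inputs
import Fermat.Agent.S48.W.H.FFL
import Fermat.Agent.S48.W.H.Top
import Fermat.Agent.S48.W.A.DescFinal
import Fermat.Agent.S48.W.A.TorsFin

set_option autoImplicit false
set_option linter.unusedSectionVars false
set_option linter.style.haveILetI false

noncomputable section

namespace Fermat.Agent.S48WA

open ModularCurve AlgebraicCurve CongruenceSubgroup IntermediateField
open Fermat.Agent.S48W Fermat.Agent.S24Diff
open Fermat.Agent.S48WA2 (IsDiamondC jBar1)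

local notation "Kb" => AlgebraicClosure ℚ

/-- **(A-INP 3)** `ℂ F₁(M)` is a function field in one variable, witnessed by `j`. -/
theorem functionFieldOneC (M : ℕ) [NeZero M] : IsFunctionFieldOver ℂ (FC1 M) (jBar1 M) :=
  Fermat.Agent.S48W.functionFieldOneC_of M (frickeAlgebraicOne M)

/-- **(A-INP 3)** `ℂ F(Γ₁(M) ∩ Γ₀(p))` is a function field in one variable, witnessed by `j`. -/
theorem functionFieldOnePC (M p : ℕ) [NeZero M] [NeZero p] :
    IsFunctionFieldOver ℂ (laurentBaseChange ℂ (FOneP M p)) (jBar1P M p) :=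
  Fermat.Agent.S48W.functionFieldOnePC_of M p (frickeAlgebraicOne M)

/-- **(A-INP 1)** the inputs of the Hecke correspondence `T_p` over `ℂ`. -/
theorem heckeInputsOneC (M p : ℕ) [NeZero M] [NeZero p] : HeckeInputsOneC M p :=
  heckeInputsOneC_of M p (functionFieldOneC M) (functionFieldOnePC M p)

/-- the same for a prime. -/
theorem heckeInputsOneC_primes (M : ℕ) [NeZero M] (p : Nat.Primes) :
    haveI : NeZero (p : ℕ) := ⟨p.2.ne_zero⟩
    HeckeInputsOneC M p :=
  haveI : NeZero (p : ℕ) := ⟨p.2.ne_zero⟩
  heckeInputsOneC M p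

/-- **(A-INP 2)** the Riemann-Roch library applies to `FC1 M`. -/
theorem isRRField_FC1_top (M : ℕ) [NeZero M] : Fermat.Agent.RR.IsRRField ℂ (FC1 M) :=
  isRRField_FC1 M (functionFieldOneC M)

/-- **(A-INP 2)** the Riemann-Roch library applies to `FOneBar M`. -/
theorem isRRField_FOneBar_top (M : ℕ) [NeZero M] : Fermat.Agent.RR.IsRRField Kb (FOneBar M) :=
  isRRField_FOneBar M (functionFieldOne M)

/-- **(A-INP 4)** the diamond automorphisms exist, over `ℚ̄` and over `ℂ`. -/
theorem diamondExistsOneAll (M : ℕ) [NeZero M] : DiamondExistsOne M :=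
  diamondExistsOne_of M (diamondComplexOne M)

/-- **(A4) the descent `ℂ → ℚ̄`**, from the dictionary only. -/
theorem descentOne_top (M : ℕ) [NeZero M] [HasDict1 M] : DescentOne M :=
  descentOne_of M (isRRField_FOneBar_top M) (isRRField_FC1_top M)
    (fun _ hn => finite_torsion_FC1 hn)
    (fun p _ => heckeInputsOne_primes M p)
    (fun p _ => heckeInputsOneC_primes M p)

end Fermat.Agent.S48WA
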