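/-
S48 wall (W), BLOCK A, seat LAT (helper83), part 2: `latticeOne : LatticeOne M`.

The operators of block A on `L = Hom_par(Γ₁(M), ℤ)` in terms of those of `A5/Hecke.lean`:
`T_p^{A} = T_p^{A5} ∘ ⟨p⁻¹⟩^{A5}`, `δ_d^{A} = ⟨d⁻¹⟩^{A5}`
(`heckeHomOne_eq_lat`, `diamondHomOne_eq_lat`), and explicit formulas
`heckeHomOne_apply_lat` (`(T_p c)(g) = ∑_t c(g_t)`, `g_t = heckeCosetOne hpM g t`).
-/
import Mathlib
import Fermat.Agent.S48.W.A.LatticeCoset

set_option autoImplicit false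

noncomputable section

namespace Fermat.Agent.S48WA

open ModularCurve CongruenceSubgroup Matrix.SpecialLinearGroup ModularCurve.Period
open scoped MatrixGroups
open P2MW.S_ModularForm_heckeT_slash_eq_self_of_mem_Gamma0.ModularForm.HeckeSlashInvariance

variable {M : ℕ} [NeZero M]

/-! ### `T_p` -/

section Hecke

variable {p : ℕ} [Fact p.Prime]

/-- `∑_t c(g_t)` in terms of the operators of `A5/Hecke.lean`. -/
theorem sum_heckeCosetOne (hpM : Nat.Coprime p M) {A : Type*} [AddCommGroup A]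
    (c : Additive (Gamma1 M) →+ A) (g : Gamma1 M) :
    ∑ t : OnePoint (ZMod p), c (Additive.ofMul (heckeCosetOne hpM g t))
      = S48WA5.heckeAllOne hpM A
          (S48WA5.diamondAllOne M (ZMod.unitOfCoprime p hpM)⁻¹ A c) (Additive.ofMul g) := by
  have : NeZero p := ⟨(Fact.out : p.Prime).ne_zero⟩
  set w : Gamma0 M := latTwist hpM OnePoint.infty with hw
  have hwmap : Gamma0Map M w = (((ZMod.unitOfCoprime p hpM)⁻¹ : (ZMod M)ˣ) : ZMod M) :=
    gamma0Map_latTwist hpM _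
  -- the elements `u_t = w_t w⁻¹ ∈ Γ₁(M)`
  have humem : ∀ t : OnePoint (ZMod p),
      ((latTwist hpM t * w⁻¹ : Gamma0 M) : SL(2, ℤ)) ∈ Gamma1 M := by
    intro t
    rw [S48WA5.mem_Gamma1_iff_Gamma0Map, map_mul, gamma0Map_latTwist, ← hwmap]
    exact S48WA5.Gamma0Map_mul_inv w
  let u : OnePoint (ZMod p) → Gamma1 M := fun t => ⟨_, humem t⟩
  have hdecomp : ∀ t : OnePoint (ZMod p),
      heckeCosetOne hpM g t
        = u t * S48WA5.conjOne w (S48WA5.cosetOne hpM g t)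
          * (u (redMatrix p (g : SL(2, ℤ)) • t))⁻¹ := by
    intro t
    apply Subtype.ext
    rw [coe_heckeCosetOne]
    simp only [Subgroup.coe_mul, Subgroup.coe_inv, u, S48WA5.coe_conjOne_h]
    group
  have hval : ∀ t : OnePoint (ZMod p),
      c (Additive.ofMul (heckeCosetOne hpM g t))
        = c (Additive.ofMul (u t))
          + S48WA5.diamondAllOne M (ZMod.unitOfCoprime p hpM)⁻¹ A c
              (Additive.ofMul (S48WA5.cosetOne hpM g t))
          - c (Additive.ofMul (u (redMatrix p (g : SL(2, ℤ)) • t))) := by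
    intro t
    rw [hdecomp t, ofMul_mul, ofMul_mul, ofMul_inv, map_add, map_add, map_neg,
      S48WA5.diamondAllOne_apply_of_map _ c w hwmap]
    abel
  rw [Finset.sum_congr rfl (fun t _ => hval t), Finset.sum_sub_distrib, Finset.sum_add_distrib,
    S48WA5.heckeAllOne_apply]
  have hperm : ∑ t : OnePoint (ZMod p), c (Additive.ofMul (u (redMatrix p (g : SL(2, ℤ)) • t)))
      = ∑ t : OnePoint (ZMod p), c (Additive.ofMul (u t)) :=
    Equiv.sum_comp (MulAction.toPerm (redMatrix p (g : SL(2, ℤ))))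
      (fun t => c (Additive.ofMul (u t)))
  rw [hperm]
  abel

end Hecke

/-- the Hecke operator of block A in terms of the operators of `A5/Hecke.lean`. -/
def latHecke (M : ℕ) [NeZero M] (p : Nat.Primes) (hpM : Nat.Coprime (p : ℕ) M) :
    HomParOne M →ₗ[ℤ] HomParOne M :=
  (S48WA5.heckeHomOne M p) ∘ₗ (S48WA5.diamondHomOne M (ZMod.unitOfCoprime p hpM)⁻¹)

theorem latHecke_apply (p : Nat.Primes) (hpM : Nat.Coprime (p : ℕ) M) (c : HomParOne M)
    (g : Gamma1 M) :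
    haveI : Fact (p : ℕ).Prime := ⟨p.2⟩
    ((latHecke M p hpM c : HomParOne M) : Additive (Gamma1 M) →+ ℤ) (Additive.ofMul g)
      = ∑ t : OnePoint (ZMod (p : ℕ)),
          (c : Additive (Gamma1 M) →+ ℤ) (Additive.ofMul (heckeCosetOne hpM g t)) := by
  have : Fact (p : ℕ).Prime := ⟨p.2⟩
  rw [sum_heckeCosetOne, latHecke, LinearMap.comp_apply, S48WA5.heckeHomOne_coe p hpM,
    S48WA5.diamondHomOne_coe]

theorem isHeckeHomOne_latHecke (p : Nat.Primes) (hpM : Nat.Coprime (p : ℕ) M) :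
    IsHeckeHomOne M p hpM (latHecke M p hpM) := by
  have : Fact (p : ℕ).Prime := ⟨p.2⟩
  intro c g gt π hrel
  have hgt : ∀ t, gt t = heckeCosetOne hpM g t := fun t =>
    Subtype.ext (heckeCosetOne_unique' hpM g (gt t) t (π t) (hrel t)).2
  rw [latHecke_apply]
  exact Finset.sum_congr rfl fun t _ => by rw [hgt t]

/-! ### the diamonds -/

theorem isDiamondHomOne_lat (d : (ZMod M)ˣ) :
    IsDiamondHomOne M d (S48WA5.diamondHomOne M d⁻¹) := by
  intro c γ hγ g g' hrel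
  rw [S48WA5.diamondHomOne_coe,
    S48WA5.diamondAllOne_apply_of_map d⁻¹ _ ⟨γ, hγ.1⟩ (gamma0Map_of_isDiamondMat hγ) g]
  have hconj : S48WA5.conjOne ⟨γ, hγ.1⟩ g = g' := by
    apply Subtype.ext
    rw [S48WA5.coe_conjOne_h]
    show γ * (g : SL(2, ℤ)) * γ⁻¹ = (g' : SL(2, ℤ))
    rw [hrel, mul_inv_cancel_right]
  rw [hconj]

/-! ### (LAT) -/

/-- **(LAT)** the operators exist, and `L` is a lattice. -/
theorem latticeOne (M : ℕ) [NeZero M] : LatticeOne M :=
  ⟨fun p hpM => ⟨latHecke M p hpM, isHeckeHomOne_latHecke p hpM⟩,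
    fun d => ⟨S48WA5.diamondHomOne M d⁻¹, isDiamondHomOne_lat d⟩,
    S48WA5.instFreeHomParOne M, S48WA5.instFiniteHomParOne M⟩

/-! ### explicit formulas for the operators of `A/Interfaces.lean` -/

theorem heckeHomOne_apply_lat (p : Nat.Primes) (hpM : Nat.Coprime (p : ℕ) M) (c : HomParOne M)
    (g : Gamma1 M) :
    haveI : Fact (p : ℕ).Prime := ⟨p.2⟩
    ((heckeHomOne M p c : HomParOne M) : Additive (Gamma1 M) →+ ℤ) (Additive.ofMul g)
      = ∑ t : OnePoint (ZMod (p : ℕ)),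
          (c : Additive (Gamma1 M) →+ ℤ) (Additive.ofMul (heckeCosetOne hpM g t)) := by
  have : Fact (p : ℕ).Prime := ⟨p.2⟩
  have : NeZero (p : ℕ) := ⟨p.2.ne_zero⟩
  exact isHeckeHomOne_heckeHomOne (latticeOne M) p hpM c g (fun t => heckeCosetOne hpM g t)
    (MulAction.toPerm (redMatrix (p : ℕ) (g : SL(2, ℤ)))) (fun t => heckeCosetOne_spec hpM g t)

theorem heckeHomOne_eq_lat (p : Nat.Primes) (hpM : Nat.Coprime (p : ℕ) M) :
    heckeHomOne M p
      = (S48WA5.heckeHomOne M p) ∘ₗ (S48WA5.diamondHomOne M (ZMod.unitOfCoprime p hpM)⁻¹) := by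
  have : Fact (p : ℕ).Prime := ⟨p.2⟩
  refine LinearMap.ext fun c => Subtype.ext (AddMonoidHom.ext fun γ => ?_)
  obtain ⟨g, rfl⟩ := Additive.ofMul.surjective γ
  rw [heckeHomOne_apply_lat p hpM]
  exact (latHecke_apply p hpM c g).symm

theorem diamondHomOne_apply_lat (d : (ZMod M)ˣ) (c : HomParOne M) (γ : Gamma0 M)
    (hγ : ((((γ : SL(2, ℤ)) 0 0 : ℤ)) : ZMod M) = (d : ZMod M)) (g : Gamma1 M) :
    ((diamondHomOne M d c : HomParOne M) : Additive (Gamma1 M) →+ ℤ) (Additive.ofMul g)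
      = (c : Additive (Gamma1 M) →+ ℤ) (Additive.ofMul (S48WA5.conjOne γ g)) := by
  refine isDiamondHomOne_diamondHomOne (latticeOne M) d c (γ : SL(2, ℤ)) ⟨γ.2, hγ⟩ g
    (S48WA5.conjOne γ g) ?_
  rw [S48WA5.coe_conjOne_h, inv_mul_cancel_right]

theorem diamondHomOne_eq_lat (d : (ZMod M)ˣ) :
    diamondHomOne M d = S48WA5.diamondHomOne M d⁻¹ := by
  refine LinearMap.ext fun c => Subtype.ext (AddMonoidHom.ext fun γ => ?_)
  obtain ⟨g, rfl⟩ := Additive.ofMul.surjective γ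
  have hγ := diamondMat_spec M d
  rw [diamondHomOne_apply_lat d c ⟨diamondMat M d, hγ.1⟩ hγ.2 g]
  exact (isDiamondHomOne_lat d c (diamondMat M d) hγ g
    (S48WA5.conjOne ⟨diamondMat M d, hγ.1⟩ g)
    (by rw [S48WA5.coe_conjOne_h, inv_mul_cancel_right])).symm

end Fermat.Agent.S48WA
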