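/-
S48 wall (W), BLOCK A (helper43), seat A6: the GLUE
  `LatticeOne M` + `PeriodEigenOne M` + `KappaOne M`  ⟹  `EigenclassOne M`   (IF-A).
-/
import Fermat.Agent.S48.W.A.Interfaces
import Fermat.Agent.F3.BaseChangeInj

set_option autoImplicit false
set_option linter.style.haveILetI false

noncomputable section

namespace Fermat.Agent.S48WA

open ModularCurve AlgebraicCurve CongruenceSubgroup Fermat.Agent.S48W
open scoped TensorProduct

/-- transport of an eigenvector along an equivariant map, after base change. -/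
theorem glue_comm {k L X : Type*} [Field k] [AddCommMonoid L] [Module ℤ L] [AddCommMonoid X]
    [Module ℤ X]
    (κ : L →ₗ[ℤ] X) (T : L →ₗ[ℤ] L) (T' : X →ₗ[ℤ] X) (h : ∀ c, κ (T c) = T' (κ c))
    (y : k ⊗[ℤ] L) (a : k) (hy : T.baseChange k y = a • y) :
    T'.baseChange k (κ.baseChange k y) = a • κ.baseChange k y := by
  have hcomm : T'.baseChange k ∘ₗ κ.baseChange k = κ.baseChange k ∘ₗ T.baseChange k := by
    rw [← LinearMap.baseChange_comp, ← LinearMap.baseChange_comp]
    exact congrArg (LinearMap.baseChange k) (LinearMap.ext fun c => (h c).symm)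
  have h1 := congrArg (fun f => f y) hcomm
  simp only [LinearMap.comp_apply] at h1
  rw [h1, hy, map_smul]

set_option maxHeartbeats 1000000 in
/-- **Glue (A6).** -/
theorem eigenclassOne_of (M : ℕ) [NeZero M] (hL : LatticeOne M) (hP : PeriodEigenOne M)
    (hκ : KappaOne M) : EigenclassOne M := by
  intro ℓ hℓ k _ _ φ e
  haveI : Fact ℓ.Prime := ⟨hℓ⟩
  haveI : Module.Free ℤ (HomParOne M) := hL.2.2.1
  haveI : Module.Finite ℤ (HomParOne M) := hL.2.2.2
  obtain ⟨y, hy0, hyT, hyD⟩ := hP ℓ hℓ k φ e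
  obtain ⟨κ, hker, hκT, hκD⟩ := hκ ℓ hℓ
  have hX : ∀ x : JtorsOne M ℓ, ℓ • x = 0 := by
    intro x
    have h := x.2
    rw [Submodule.mem_torsionBy_iff] at h
    apply Subtype.ext
    rw [Submodule.coe_smul_of_tower, Submodule.coe_zero, ← h, natCast_zsmul]
  have hinj := Fermat.Agent.F3Glue.baseChange_injective_of_ker (p := ℓ) k κ hX hker
  refine ⟨κ.baseChange k y, fun h0 => hy0 (hinj (h0.trans (map_zero _).symm)),
    fun p hpM hpℓ => ?_, fun d => ?_⟩
  · exact glue_comm κ (heckeHomOne M p) (heckeTorsOne M ℓ p) (hκT p hpM) y _ (hyT p hpM hpℓ)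
  · exact glue_comm κ (diamondHomOne M d) (diamondTorsOne M ℓ d) (hκD d) y _ (hyD d)

/-- **Block A**, final form. -/
theorem eigenclassOne_of_all (M : ℕ) [NeZero M] (hL : LatticeOne M) (hP : PeriodEigenOne M)
    (hκ : KappaOneAll M) : EigenclassOne M :=
  eigenclassOne_of M hL hP (kappaOne_of_all hκ)

end Fermat.Agent.S48WA
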