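/-
S48 wall (W), BLOCK A (helper43): the family `κ` over `ℚ̄` from `κ` over `ℂ` and the descent:
  `KappaCOne M` + `DescentOne M` + `DiamondExistsOne M`  ⟹  `KappaOneAll M`.
-/
import Fermat.Agent.S48.W.A.InterfacesC

set_option autoImplicit false
set_option linter.style.haveILetI false

noncomputable section

namespace Fermat.Agent.S48WA

open ModularCurve AlgebraicCurve CongruenceSubgroup Fermat.Agent.S48W
open Fermat.Agent.S48WA2 (IsDiamondC)
open scoped TensorProduct

local notation "Kb" => AlgebraicClosure ℚ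

theorem diamondOne_apply {M : ℕ} [NeZero M] {d : (ZMod M)ˣ}
    (h : ∃ σ : FOneBar M ≃ₐ[Kb] FOneBar M, IsDiamond M d σ) (y : JOne M) :
    diamondOne M d y = h.choose • y := by
  rw [diamondOne, dif_pos h]
  rfl

set_option maxHeartbeats 2000000 in
/-- **`κ` over `ℚ̄`** from `κ` over `ℂ` and the descent. -/
theorem kappaOneAll_of (M : ℕ) [NeZero M] (hC : KappaCOne M) (hD : DescentOne M)
    (hE : DiamondExistsOne M) : KappaOneAll M := by
  classical
  obtain ⟨κC, htors, hker, hcompat, hT, hδ⟩ := hC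
  obtain ⟨bc, hinj, hsurj, hbcT, hbcδ⟩ := hD
  -- the choice
  have hex : ∀ (n : ℕ) (c : HomParOne M), ∃ y : JOne M, 0 < n → bc y = κC n c := by
    intro n c
    rcases Nat.eq_zero_or_pos n with h0 | hn
    · exact ⟨0, fun h => absurd h0 h.ne'⟩
    · obtain ⟨y, hy⟩ := hsurj n hn (κC n c) (htors n hn c)
      exact ⟨y, fun _ => hy⟩
  choose k hk using hex
  have hmem : ∀ (n : ℕ) (hn : 0 < n) (c : HomParOne M), k n c ∈ JtorsOne M n := by
    intro n hn c
    rw [Submodule.mem_torsionBy_iff, natCast_zsmul]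
    apply hinj
    rw [map_nsmul, hk n c hn, htors n hn c, map_zero]
  have hadd : ∀ (n : ℕ) (hn : 0 < n) (c c' : HomParOne M), k n (c + c') = k n c + k n c' := by
    intro n hn c c'
    apply hinj
    rw [map_add, hk n _ hn, hk n _ hn, hk n _ hn, map_add]
  have hzero : ∀ (n : ℕ) (hn : 0 < n), k n 0 = 0 := by
    intro n hn
    apply hinj
    rw [hk n _ hn, map_zero, map_zero]
  let κ : (n : ℕ) → HomParOne M →ₗ[ℤ] JtorsOne M n := fun n =>
    if hn : 0 < n then
      (AddMonoidHom.toIntLinearMap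
        { toFun := fun c => (⟨k n c, hmem n hn c⟩ : JtorsOne M n)
          map_zero' := Subtype.ext (hzero n hn)
          map_add' := fun c c' => Subtype.ext (hadd n hn c c') })
    else 0
  have hκ : ∀ (n : ℕ) (hn : 0 < n) (c : HomParOne M),
      ((κ n c : JtorsOne M n) : JOne M) = k n c := by
    intro n hn c
    simp only [κ, dif_pos hn]
    rfl
  have hκ0 : ∀ (n : ℕ), ¬ 0 < n → ∀ c : HomParOne M, κ n c = 0 := by
    intro n hn c
    simp only [κ, dif_neg hn]
    rfl
  refine ⟨κ, ?_, ?_, ?_, ?_⟩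
  · intro n hn c hc
    have h1 : k n c = 0 := by
      rw [← hκ n hn c, hc]
      rfl
    have h2 := hk n c hn
    rw [h1, map_zero] at h2
    exact hker n hn c h2.symm
  · intro n d c hn hd
    rw [hκ n hn c, hκ (d * n) (Nat.mul_pos hd hn) c, natCast_zsmul]
    apply hinj
    rw [map_nsmul, hk _ _ (Nat.mul_pos hd hn), hk _ _ hn]
    exact hcompat n d c hn hd
  · intro n p hpM c
    rcases Nat.eq_zero_or_pos n with h0 | hn
    · have hn' : ¬ 0 < n := by omega
      rw [hκ0 n hn', hκ0 n hn', map_zero]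
    · apply Subtype.ext
      rw [hκ n hn]
      have h1 : ((heckeTorsOne M n p (κ n c) : JtorsOne M n) : JOne M)
          = heckeOne M p (k n c) := by
        rw [← hκ n hn c]
        rfl
      rw [h1]
      apply hinj
      rw [hk n _ hn, hbcT p hpM, hk n _ hn]
      exact hT n hn p hpM c
  · intro n d c
    rcases Nat.eq_zero_or_pos n with h0 | hn
    · have hn' : ¬ 0 < n := by omega
      rw [hκ0 n hn', hκ0 n hn', map_zero]
    · apply Subtype.ext
      rw [hκ n hn]
      have h1 : ((diamondTorsOne M n d (κ n c) : JtorsOne M n) : JOne M)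
          = diamondOne M d (k n c) := by
        rw [← hκ n hn c]
        rfl
      rw [h1, diamondOne_apply (hE d).1]
      obtain ⟨σ', hσ'⟩ := (hE d).2
      apply hinj
      rw [hk n _ hn, hbcδ d _ σ' (hE d).1.choose_spec hσ', hk n _ hn]
      exact hδ n hn d σ' hσ' c

end Fermat.Agent.S48WA
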