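/-
S48 wall (W), BLOCK A (sub-architect helper43): the TOP wiring of block A.

  `EigenclassOne M`  (IF-A)  from the pieces that are still open:
    * `HasDict1 M`          — the dictionary for `Γ₁(M)` (A2, helper36);
    * `KHecke M`, `KDiamond M` — Hecke / diamond equivariance of the graph (K-HECKE, K-DIAMOND);
    * `DescentOne M`        — the descent `ℂ → ℚ̄` (DESC);
    * `DiamondExistsOne M`  — the diamond automorphisms over `ℚ̄` and `ℂ` (A-INP / H2);
    * `LatticeOne M`        — the operators on `L = Hom_par(Γ₁(M), ℤ)` (LAT);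
    * `PeriodEigenOne M`    — periods and the reduction lemma (A5).
  Proved and used here: `exists_isTheta_charOf` (K-EXISTS, helper27), `kKernel` (helper2),
  `kappaCOne_of` (K-ASM), `kappaOneAll_of`, `eigenclassOne_of_all` (glue).
-/
import Fermat.Agent.S48.W.A.Glue
import Fermat.Agent.S48.W.A.KappaGlue
import Fermat.Agent.S48.W.A.K.Asm
import Fermat.Agent.S48.W.A.K.KKernel
import Fermat.Agent.S48.W.A.K.Exists
import Fermat.Agent.S48.W.A.K.DiamondFinal

set_option autoImplicit false

noncomputable section

namespace Fermat.Agent.S48WA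

open ModularCurve AlgebraicCurve CongruenceSubgroup Fermat.Agent.S48W

variable (M : ℕ) [NeZero M]

/-- `κ` over `ℂ` from the two equivariances. -/
theorem kappaCOne_of_equivariance [HasDict1 M] (hHE : KHecke M) (hDI : KDiamond M) :
    KappaCOne M :=
  kappaCOne_of (kExists M) kKernel hHE hDI

/-- **Block A, top.** -/
theorem eigenclassOne_top [HasDict1 M] (hHE : KHecke M) (hDI : KDiamond M)
    (hDesc : DescentOne M) (hDia : DiamondExistsOne M) (hL : LatticeOne M)
    (hP : PeriodEigenOne M) : EigenclassOne M :=
  eigenclassOne_of_all M hL hP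
    (kappaOneAll_of M (kappaCOne_of_equivariance M hHE hDI) hDesc hDia)

/-- **Block A, top**, with the diamond equivariance of helper22 (`kDiamond`) plugged in. -/
theorem eigenclassOne_top' [HasDict1 M] (hD3d : Fermat.Agent.S48WA2.DictD3Diamond M)
    (hHE : KHecke M) (hDesc : DescentOne M) (hDia : DiamondExistsOne M) (hL : LatticeOne M)
    (hP : PeriodEigenOne M) : EigenclassOne M :=
  eigenclassOne_top M hHE (kDiamond hL hD3d) hDesc hDia hL hP

end Fermat.Agent.S48WA
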