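/-
S48 wall (W), BLOCK A (sub-architect helper43): the FINAL wiring of block A.

  `EigenclassOne M`  (IF-A), `5 ≤ M`, from (D3) for the Hecke correspondences ALONE:
    * `DictD3One M p` (`p ∤ M` prime)       — seat A2-D3 (helper78 and team).
  Everything else is plugged in:
    `hasDict1_main` (A2, helper36 and team), `dictD3Diamond_of` (A2-DIAM, helper6),
    `latticeOne` (LAT, helper83), `kHecke` (K-HECKE, helper71), `kDiamond` (K-DIAMOND, helper22),
    `kExists` (helper27), `kKernel` (helper2), `descentOne_top` (DESC, helper89, helper87; TFIN,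
    helper61; A-INP, helper2; H-FFL, helper49), `a5_periodEigenOne` (A5, helper21 and team),
    block H (helper93), hub A1 (`xExp`).
-/
import Fermat.Agent.S48.W.A.Top
import Fermat.Agent.S48.W.A.Lattice
import Fermat.Agent.S48.W.A.InputsTop
import Fermat.Agent.S48.W.A.K.Hecke
import Fermat.Agent.S48.W.A.Dict.HasDict
import Fermat.Agent.S48.W.A.Dict.Diamond
import Fermat.Agent.S48.W.A5.Final
import Fermat.Agent.S48.W.R.AsmAt

set_option autoImplicit false
set_option linter.style.haveILetI false

noncomputable section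

namespace Fermat.Agent.S48WA

open ModularCurve AlgebraicCurve CongruenceSubgroup Fermat.Agent.S48W Fermat.Agent.S24Diff
open Fermat.Agent.S48WA2 (jBar1 DictD3One DictD3Diamond)

variable (M : ℕ) [NeZero M]

/-- **(D3)** for the Hecke correspondences `T_p`, `p ∤ M` prime: the only open input of
block A. -/
def DictD3Primes : Prop :=
  ∀ p : Nat.Primes, Nat.Coprime (p : ℕ) M → @DictD3One M (p : ℕ) _ ⟨p.2.ne_zero⟩

/-- **(HE)** Hecke equivariance of the graph of `κ`, from (D3). -/
theorem kHecke_final (hD3 : DictD3Primes M) : KHecke M :=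
  kHecke (latticeOne M) hD3 (fun p _ => heckeInputsOneC_primes M p)

/-- **(DI)** diamond equivariance of the graph of `κ`. -/
theorem kDiamond_final : KDiamond M :=
  kDiamond (latticeOne M) (Fermat.Agent.S48WA2.dictD3Diamond_of (Fermat.Agent.S48WA2.frickeDataMain M))

/-- **Block A, final wiring**: `EigenclassOne M` from the dictionary for `Γ₁(M)` alone. -/
theorem eigenclassOne_final [HasDict1 M] (hD3 : DictD3Primes M) : EigenclassOne M :=
  eigenclassOne_top M (kHecke_final M hD3) (kDiamond_final M) (descentOne_top M)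
    (diamondExistsOneAll M) (latticeOne M) (Fermat.Agent.S48WA5.a5_periodEigenOne M)

/-- **Block A, final wiring**, `5 ≤ M`: `EigenclassOne M` from (D3) for the `T_p`. -/
theorem eigenclassOne_of_d3 (hM : 5 ≤ M) (hD3 : DictD3Primes M) : EigenclassOne M :=
  haveI : HasDict1 M := Fermat.Agent.S48WA2.hasDict1_main M hM
  eigenclassOne_final M hD3

/-- **Block A, in the form consumed by the wall** (`S48/W/Final.lean`, hypothesis `hE`). -/
theorem eigenclassOneAt_of_d3 (hD3 : ∀ (M : ℕ) [NeZero M], 5 ≤ M → DictD3Primes M) :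
    ∀ (M : ℕ) [NeZero M] (ℓ : ℕ), ℓ.Prime → 5 ≤ ℓ → ℓ ∣ M → EigenclassOneAt M ℓ := by
  intro M _ ℓ hℓ h5 hdvd
  have hM : 5 ≤ M := h5.trans (Nat.le_of_dvd (Nat.pos_of_ne_zero (NeZero.ne M)) hdvd)
  exact eigenclassOneAt_of (eigenclassOne_of_d3 M hM (hD3 M hM)) hℓ

end Fermat.Agent.S48WA
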