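/-
S48 wall (W), BLOCK A (sub-architect helper43): **BLOCK A IS CLOSED**.  Unconditional.

* `dictD3Primes_main M (hM : 3 ≤ M) : DictD3Primes M`           (A2-D3, helper78 and team);
* `eigenclassOne_main M (hM : 5 ≤ M) : EigenclassOne M`         (IF-A);
* `eigenclassOneAt_main` : the hypothesis `hE` of `S48/W/Final.lean`
    (`wallStatementFrom_of_leaves`): `∀ M ℓ, ℓ.Prime → 5 ≤ ℓ → ℓ ∣ M → EigenclassOneAt M ℓ`.
-/
import Fermat.Agent.S48.W.A.Final
import Fermat.Agent.S48.W.A.Dict.D3Final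

set_option autoImplicit false
set_option linter.style.haveILetI false

noncomputable section

namespace Fermat.Agent.S48WA

open Fermat.Agent.S48W

/-- **(D3)** for the Hecke correspondences `T_p`, `p ∤ M` prime, `3 ≤ M`. -/
theorem dictD3Primes_main (M : ℕ) [NeZero M] (hM : 3 ≤ M) : DictD3Primes M := fun p hpM =>
  haveI : NeZero (p : ℕ) := ⟨p.2.ne_zero⟩
  Fermat.Agent.S48WA2.dictD3One_main M (p : ℕ) hM p.2 hpM

/-- **(IF-A) the mod-`ℓ` eigen-class** at level `Γ₁(M)`, `5 ≤ M`: unconditional. -/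
theorem eigenclassOne_main (M : ℕ) [NeZero M] (hM : 5 ≤ M) : EigenclassOne M :=
  eigenclassOne_of_d3 M hM (dictD3Primes_main M (by omega))

/-- **Block A, in the form consumed by the wall** (`S48/W/Final.lean`, hypothesis `hE`):
unconditional. -/
theorem eigenclassOneAt_main :
    ∀ (M : ℕ) [NeZero M] (ℓ : ℕ), ℓ.Prime → 5 ≤ ℓ → ℓ ∣ M → EigenclassOneAt M ℓ :=
  eigenclassOneAt_of_d3 fun M _ hM => dictD3Primes_main M (by omega)

end Fermat.Agent.S48WA
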